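import Mathlib.AlgebraicGeometry.EllipticCurve.Affine.Point
import Mathlib.RingTheory.Valuation.Basic
import Mathlib.Tactic.FieldSimp
import Mathlib.Tactic.LinearCombination

/-! # The kernel of reduction of a Weierstrass curve with integral coefficients

Let `v : Valuation K Γ₀` be a valuation on a field `K` and `W` a Weierstrass curve over `K` with
`v`-integral coefficients. We show that the points `(x, y)` with `1 < v x` together with `0` have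
no `n`-torsion if `v n = 1`, by studying the parameter `z = -x/y`. -/

set_option autoImplicit false

namespace Fermat.Agent.ECRed

open WeierstrassCurve WeierstrassCurve.Affine Polynomial

/-- All coefficients of `W` are `v`-integral. -/
structure IntCoeff {K Γ₀ : Type*} [Field K] [LinearOrderedCommGroupWithZero Γ₀]
    (v : Valuation K Γ₀) (W : WeierstrassCurve K) : Prop where
  a₁ : v W.a₁ ≤ 1
  a₂ : v W.a₂ ≤ 1
  a₃ : v W.a₃ ≤ 1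
  a₄ : v W.a₄ ≤ 1
  a₆ : v W.a₆ ≤ 1

section Vieta

variable {F : Type*} [Field F] [DecidableEq F] {W : WeierstrassCurve F}

lemma vieta₂ {x₁ x₂ y₁ y₂ : F} (h₁ : W.toAffine.Equation x₁ y₁) (h₂ : W.toAffine.Equation x₂ y₂)
    (hxy : ¬(x₁ = x₂ ∧ y₁ = W.toAffine.negY x₂ y₂)) {ℓ ν x₃ : F}
    (hℓ : ℓ = W.toAffine.slope x₁ x₂ y₁ y₂) (hν : ν = y₁ - ℓ * x₁)
    (hx₃ : x₃ = W.toAffine.addX x₁ x₂ ℓ) :
    x₁ * x₂ + x₁ * x₃ + x₂ * x₃ = W.a₄ - 2 * ℓ * ν - W.a₁ * ν - W.a₃ * ℓ ∧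
    x₁ * x₂ * x₃ = ν ^ 2 + W.a₃ * ν - W.a₆ := by
  have h := addPolynomial_slope h₁ h₂ hxy
  rw [addPolynomial_eq, neg_inj, Cubic.prod_X_sub_C_eq, Cubic.toPoly_injective] at h
  rw [← hℓ, ← hx₃, Cubic.ext_iff] at h
  simp only at h
  obtain ⟨-, -, h3, h4⟩ := h
  subst hν
  constructor
  · linear_combination -h3
  · linear_combination h4

omit [DecidableEq F] in
lemma vieta₁ {x₁ x₂ : F} {ℓ x₃ : F} (hx₃ : x₃ = W.toAffine.addX x₁ x₂ ℓ) :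
    x₁ + x₂ + x₃ = ℓ ^ 2 + W.a₁ * ℓ - W.a₂ := by
  rw [hx₃, addX]; ring

omit [DecidableEq F] in
/-- The Weierstrass equation in the `(z, w)`-coordinates, `z = -x/y`, `w = -1/y`. -/
lemma equation_zw {x y : F} (h : W.toAffine.Equation x y) (hy : y ≠ 0) {z w : F}
    (hz : z = -x / y) (hw : w = -1 / y) :
    w = z ^ 3 + W.a₁ * z * w + W.a₂ * z ^ 2 * w + W.a₃ * w ^ 2 + W.a₄ * z * w ^ 2 +
      W.a₆ * w ^ 3 := by
  rw [equation_iff] at h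
  subst hz hw
  field_simp
  linear_combination -h

/-- The slope in the `(z, w)`-coordinates, `z = -x/y`, `w = -1/y`. -/
lemma slope_zw {x₁ x₂ y₁ y₂ : F} (h₁ : W.toAffine.Equation x₁ y₁) (h₂ : W.toAffine.Equation x₂ y₂)
    (hxy : ¬(x₁ = x₂ ∧ y₁ = W.toAffine.negY x₂ y₂)) (hy₁ : y₁ ≠ 0) (hy₂ : y₂ ≠ 0) {ℓ ν : F}
    (hℓ : ℓ = W.toAffine.slope x₁ x₂ y₁ y₂) (hν : ν = y₁ - ℓ * x₁) {z₁ z₂ w₁ w₂ : F}
    (hz₁ : z₁ = -x₁ / y₁) (hz₂ : z₂ = -x₂ / y₂) (hw₁ : w₁ = -1 / y₁) (hw₂ : w₂ = -1 / y₂) :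
    ℓ * (1 - W.a₁ * z₁ - W.a₂ * z₁ ^ 2 - W.a₃ * (w₁ + w₂) - W.a₄ * z₁ * (w₁ + w₂) -
      W.a₆ * (w₁ ^ 2 + w₁ * w₂ + w₂ ^ 2)) +
    ν * (z₁ ^ 2 + z₁ * z₂ + z₂ ^ 2 + W.a₁ * w₂ + W.a₂ * w₂ * (z₁ + z₂) + W.a₄ * w₂ ^ 2) = 0 := by
  have e₁ := equation_zw h₁ hy₁ hz₁ hw₁
  have e₂ := equation_zw h₂ hy₂ hz₂ hw₂
  have hw₁0 : w₁ ≠ 0 := by rw [hw₁]; exact div_ne_zero (by simp) hy₁
  have hw₂0 : w₂ ≠ 0 := by rw [hw₂]; exact div_ne_zero (by simp) hy₂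
  have hx₁ : x₁ = z₁ / w₁ := by rw [hz₁, hw₁]; field_simp
  have hx₂ : x₂ = z₂ / w₂ := by rw [hz₂, hw₂]; field_simp
  have hy₁' : y₁ = -1 / w₁ := by rw [hw₁]; field_simp
  have hy₂' : y₂ = -1 / w₂ := by rw [hw₂]; field_simp
  by_cases hx : x₁ = x₂
  · have hy : y₁ ≠ W.toAffine.negY x₂ y₂ := fun h => hxy ⟨hx, h⟩
    obtain rfl := hx
    obtain rfl := Y_eq_of_Y_ne h₁ h₂ rfl hy
    rw [slope_of_Y_ne rfl hy] at hℓ
    have hd : y₁ - W.toAffine.negY x₁ y₁ ≠ 0 := sub_ne_zero.mpr hy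
    rw [eq_div_iff hd, negY] at hℓ
    have hzz : z₂ = z₁ := by rw [hz₂, hz₁]
    have hww : w₂ = w₁ := by rw [hw₂, hw₁]
    rw [hzz, hww]
    clear hz₁ hz₂ hw₁ hw₂ hx₂ hy₂' hzz hww h₁ h₂ hy e₂ hxy
    subst hν
    rw [hy₁', hx₁] at hℓ ⊢
    have h2 : ℓ * (-2 + W.a₁ * z₁ + W.a₃ * w₁) * w₁ =
      3 * z₁ ^ 2 + 2 * W.a₂ * z₁ * w₁ + W.a₄ * w₁ ^ 2 + W.a₁ * w₁ := by
      field_simp at hℓ
      linear_combination hℓ
    field_simp
    linear_combination h2 + 3 * ℓ * e₁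
  · rw [slope_of_X_ne hx] at hℓ
    have hd : x₁ - x₂ ≠ 0 := sub_ne_zero.mpr hx
    rw [eq_div_iff hd] at hℓ
    have hδ : z₁ * w₂ - z₂ * w₁ ≠ 0 := by
      intro h
      apply hd
      rw [hx₁, hx₂]
      field_simp
      linear_combination h
    subst hν
    clear hz₁ hz₂ hw₁ hw₂ h₁ h₂ hxy
    rw [hy₁', hx₁, hy₂', hx₂] at hℓ
    rw [hy₁', hx₁]
    have h2 : ℓ * (z₁ * w₂ - z₂ * w₁) = w₁ - w₂ := by
      field_simp at hℓ
      linear_combination hℓ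
    have h3 : (-1 / w₁ - ℓ * (z₁ / w₁)) * (z₁ * w₂ - z₂ * w₁) = z₂ - z₁ := by
      field_simp
      linear_combination (-z₁) * h2
    apply mul_left_cancel₀ hδ
    linear_combination (1 - W.a₁ * z₁ - W.a₂ * z₁ ^ 2 - W.a₃ * (w₁ + w₂) - W.a₄ * z₁ * (w₁ + w₂) -
      W.a₆ * (w₁ ^ 2 + w₁ * w₂ + w₂ ^ 2)) * h2 + (z₁ ^ 2 + z₁ * z₂ + z₂ ^ 2 + W.a₁ * w₂ +
      W.a₂ * w₂ * (z₁ + z₂) + W.a₄ * w₂ ^ 2) * h3 + e₁ - e₂

end Vieta

section Val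

variable {K Γ₀ : Type*} [Field K] [LinearOrderedCommGroupWithZero Γ₀] {v : Valuation K Γ₀}

lemma v_mul_le {a b : K} {r s : Γ₀} (ha : v a ≤ r) (hb : v b ≤ s) : v (a * b) ≤ r * s := by
  rw [map_mul]; exact mul_le_mul' ha hb

lemma v_imul_le {a b : K} {s : Γ₀} (ha : v a ≤ 1) (hb : v b ≤ s) : v (a * b) ≤ s := by
  simpa using v_mul_le ha hb

lemma v_pow_le {a : K} {r : Γ₀} (ha : v a ≤ r) (n : ℕ) : v (a ^ n) ≤ r ^ n := by
  rw [map_pow]; exact pow_le_pow_left' ha n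

lemma v_int_le_one (n : ℤ) : v (n : K) ≤ 1 := by
  induction n using Int.induction_on with
  | zero => simp
  | succ n ih => push_cast at ih ⊢; exact v.map_add_le ih (by simp)
  | pred n ih => push_cast at ih ⊢; exact v.map_sub_le ih (by simp)

lemma v_nat_le_one (n : ℕ) : v (n : K) ≤ 1 := by
  simpa using v_int_le_one (v := v) (n : ℤ)

lemma v_two_le_one : v (2 : K) ≤ 1 := by simpa using v_nat_le_one (v := v) 2

lemma v_three_le_one : v (3 : K) ≤ 1 := by simpa using v_nat_le_one (v := v) 3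

variable {W : WeierstrassCurve K}

lemma v_y_sq (hW : IntCoeff v W) {x y : K} (h : W.toAffine.Equation x y) (hx : 1 < v x) :
    v x < v y ∧ v y ^ 2 = v x ^ 3 := by
  have hx0 : 0 < v x := lt_trans zero_lt_one hx
  rw [equation_iff] at h
  have e : y * (y + (W.a₁ * x + W.a₃)) = x ^ 3 + (W.a₂ * x ^ 2 + (W.a₄ * x + W.a₆)) := by
    linear_combination h
  have hx23 : v x ^ 2 < v x ^ 3 := pow_lt_pow_right₀ hx (by norm_num)
  have hx12 : v x < v x ^ 2 := by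
    simpa using pow_lt_pow_right₀ hx (show 1 < 2 by norm_num)
  have hr : v (W.a₂ * x ^ 2 + (W.a₄ * x + W.a₆)) ≤ v x ^ 2 := by
    apply v.map_add_le
    · exact v_imul_le hW.a₂ (v_pow_le le_rfl 2)
    · apply v.map_add_le
      · exact le_trans (by simpa using v_mul_le hW.a₄ (le_refl (v x))) hx12.le
      · exact le_trans hW.a₆ (hx.le.trans hx12.le)
  have hR : v (x ^ 3 + (W.a₂ * x ^ 2 + (W.a₄ * x + W.a₆))) = v x ^ 3 := by
    rw [v.map_add_eq_of_lt_left, map_pow]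
    rw [map_pow]
    exact lt_of_le_of_lt hr hx23
  have hs : v (W.a₁ * x + W.a₃) ≤ v x := by
    apply v.map_add_le
    · simpa using v_mul_le hW.a₁ (le_refl (v x))
    · exact hW.a₃.trans hx.le
  have hlt : v x < v y := by
    by_contra hle
    push Not at hle
    have : v (y * (y + (W.a₁ * x + W.a₃))) ≤ v x * v x :=
      v_mul_le hle (v.map_add_le hle hs)
    rw [e, hR] at this
    rw [← sq] at this
    exact absurd this (not_le.mpr hx23)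
  refine ⟨hlt, ?_⟩
  rw [← hR, ← e, map_mul, v.map_add_eq_of_lt_left (lt_of_le_of_lt hs hlt), sq]

lemma one_lt_v_x_of_one_lt_v_y (hW : IntCoeff v W) {x y : K} (h : W.toAffine.Equation x y)
    (hy : 1 < v y) : 1 < v x := by
  by_contra hx
  push Not at hx
  rw [equation_iff] at h
  have e : y * (y + (W.a₁ * x + W.a₃)) = x ^ 3 + (W.a₂ * x ^ 2 + (W.a₄ * x + W.a₆)) := by
    linear_combination h
  have hs : v (W.a₁ * x + W.a₃) ≤ 1 := by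
    apply v.map_add_le
    · simpa using v_mul_le hW.a₁ hx
    · exact hW.a₃
  have hr : v (x ^ 3 + (W.a₂ * x ^ 2 + (W.a₄ * x + W.a₆))) ≤ 1 := by
    apply v.map_add_le
    · simpa using v_pow_le hx 3
    apply v.map_add_le
    · simpa using v_mul_le hW.a₂ (v_pow_le hx 2)
    · apply v.map_add_le
      · simpa using v_mul_le hW.a₄ hx
      · exact hW.a₆
  rw [← e, map_mul, v.map_add_eq_of_lt_left (lt_of_le_of_lt hs hy)] at hr
  exact absurd hr (not_le.mpr (by simpa using mul_lt_mul'' hy hy zero_le_one zero_le_one))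

/-- valuations of `z = -x/y` and `w = -1/y` for a point in the kernel of reduction. -/
lemma v_zw (hW : IntCoeff v W) {x y : K} (h : W.toAffine.Equation x y) (hx : 1 < v x) {z w : K}
    (hz : z = -x / y) (hw : w = -1 / y) : v z < 1 ∧ v w = v z ^ 3 ∧ v z ≠ 0 := by
  obtain ⟨h1, h2⟩ := v_y_sq hW h hx
  have hx0 : 0 < v x := lt_trans zero_lt_one hx
  have hy0 : 0 < v y := hx0.trans h1
  subst hz hw
  refine ⟨?_, ?_, ?_⟩
  · rw [map_div₀, Valuation.map_neg, div_lt_one₀ hy0]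
    exact h1
  · rw [map_div₀, map_div₀, Valuation.map_neg, Valuation.map_neg, map_one, div_pow, ← h2]
    field_simp
  · rw [map_div₀, Valuation.map_neg]
    exact div_ne_zero hx0.ne' hy0.ne'

/-- The main estimate for the addition law in the kernel of reduction. -/
lemma add_estimate [DecidableEq K] (hW : IntCoeff v W) {x₁ x₂ y₁ y₂ : K}
    (h₁ : W.toAffine.Equation x₁ y₁)
    (h₂ : W.toAffine.Equation x₂ y₂) (hx₁ : 1 < v x₁) (hx₂ : 1 < v x₂)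
    (hxy : ¬(x₁ = x₂ ∧ y₁ = W.toAffine.negY x₂ y₂)) {ℓ x₃ y₃ : K}
    (hℓ : ℓ = W.toAffine.slope x₁ x₂ y₁ y₂) (hx₃ : x₃ = W.toAffine.addX x₁ x₂ ℓ)
    (hy₃ : y₃ = W.toAffine.addY x₁ x₂ y₁ ℓ) {r : Γ₀} (hr : r < 1)
    (hz₁ : v (-x₁ / y₁) ≤ r) (hz₂ : v (-x₂ / y₂) ≤ r) :
    1 < v x₃ ∧ v (-x₃ / y₃ - (-x₁ / y₁) - (-x₂ / y₂)) ≤ r ^ 2 := by
  obtain ⟨hvz₁, hvw₁, hvz₁0⟩ := v_zw hW h₁ hx₁ rfl rfl
  obtain ⟨hvz₂, hvw₂, hvz₂0⟩ := v_zw hW h₂ hx₂ rfl rfl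
  have hy₁0 : y₁ ≠ 0 := by
    rintro rfl; simp at hvz₁0
  have hy₂0 : y₂ ≠ 0 := by
    rintro rfl; simp at hvz₂0
  obtain ⟨z₁, hz₁'⟩ : ∃ z₁, z₁ = -x₁ / y₁ := ⟨_, rfl⟩
  obtain ⟨z₂, hz₂'⟩ : ∃ z₂, z₂ = -x₂ / y₂ := ⟨_, rfl⟩
  obtain ⟨w₁, hw₁'⟩ : ∃ w₁, w₁ = -1 / y₁ := ⟨_, rfl⟩
  obtain ⟨w₂, hw₂'⟩ : ∃ w₂, w₂ = -1 / y₂ := ⟨_, rfl⟩
  obtain ⟨ν, hν⟩ : ∃ ν, ν = y₁ - ℓ * x₁ := ⟨_, rfl⟩
  have key := slope_zw h₁ h₂ hxy hy₁0 hy₂0 hℓ hν hz₁' hz₂' hw₁' hw₂'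
  rw [← hz₁'] at hz₁ hvz₁ hvz₁0 hvw₁
  rw [← hz₂'] at hz₂ hvz₂ hvz₂0 hvw₂
  rw [← hw₁'] at hvw₁
  rw [← hw₂'] at hvw₂
  rw [← hz₁', ← hz₂']
  -- powers of r
  have hr32 : r ^ 3 ≤ r ^ 2 := pow_le_pow_right_of_le_one' hr.le (by norm_num)
  have hr21 : r ^ 2 ≤ r := by simpa using pow_le_pow_right_of_le_one' hr.le (show 1 ≤ 2 by norm_num)
  have hw₁ : v w₁ ≤ r ^ 3 := by rw [hvw₁]; exact pow_le_pow_left' hz₁ 3
  have hw₂ : v w₂ ≤ r ^ 3 := by rw [hvw₂]; exact pow_le_pow_left' hz₂ 3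
  have hw₁r : v w₁ ≤ r := hw₁.trans (hr32.trans hr21)
  have hw₂r : v w₂ ≤ r := hw₂.trans (hr32.trans hr21)
  obtain ⟨D, hD⟩ : ∃ D, D = 1 - W.a₁ * z₁ - W.a₂ * z₁ ^ 2 - W.a₃ * (w₁ + w₂) -
    W.a₄ * z₁ * (w₁ + w₂) - W.a₆ * (w₁ ^ 2 + w₁ * w₂ + w₂ ^ 2) := ⟨_, rfl⟩
  obtain ⟨M, hM⟩ : ∃ M, M = z₁ ^ 2 + z₁ * z₂ + z₂ ^ 2 + W.a₁ * w₂ + W.a₂ * w₂ * (z₁ + z₂) +
    W.a₄ * w₂ ^ 2 := ⟨_, rfl⟩
  rw [← hD, ← hM] at key
  have hww : v (w₁ + w₂) ≤ r := v.map_add_le hw₁r hw₂r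
  have hvD : v D = 1 := by
    have hD' : D = 1 - (W.a₁ * z₁ + W.a₂ * z₁ ^ 2 + W.a₃ * (w₁ + w₂) +
      W.a₄ * z₁ * (w₁ + w₂) + W.a₆ * (w₁ ^ 2 + w₁ * w₂ + w₂ ^ 2)) := by rw [hD]; ring
    rw [hD']
    apply v.map_one_sub_of_lt
    refine lt_of_le_of_lt ?_ hr
    refine v.map_add_le (v.map_add_le (v.map_add_le (v.map_add_le ?_ ?_) ?_) ?_) ?_
    · exact v_imul_le hW.a₁ hz₁
    · exact v_imul_le hW.a₂ ((v_pow_le hz₁ 2).trans hr21)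
    · exact v_imul_le hW.a₃ hww
    · exact v_imul_le ((v_imul_le hW.a₄ hz₁).trans hr.le) hww
    · refine v_imul_le hW.a₆ (v.map_add_le (v.map_add_le ?_ ?_) ?_)
      · exact (v_pow_le hw₁r 2).trans hr21
      · exact v_imul_le (hw₁r.trans hr.le) hw₂r
      · exact (v_pow_le hw₂r 2).trans hr21
  have hvM : v M ≤ r ^ 2 := by
    rw [hM]
    refine v.map_add_le (v.map_add_le (v.map_add_le (v.map_add_le (v.map_add_le ?_ ?_) ?_) ?_) ?_) ?_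
    · exact v_pow_le hz₁ 2
    · rw [sq]; exact v_mul_le hz₁ hz₂
    · exact v_pow_le hz₂ 2
    · exact v_imul_le hW.a₁ (hw₂.trans hr32)
    · rw [mul_assoc, sq]
      exact v_imul_le hW.a₂ (v_mul_le hw₂r (v.map_add_le hz₁ hz₂))
    · exact v_imul_le hW.a₄ (v_pow_le hw₂r 2)
  -- estimate for the slope
  have hvℓ : v ℓ ≤ v ν * r ^ 2 := by
    have h1 : ℓ * D = -(ν * M) := by linear_combination key
    have h2 : v (ℓ * D) = v ℓ := by rw [map_mul, hvD, mul_one]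
    rw [← h2, h1, Valuation.map_neg]
    exact v_mul_le le_rfl hvM
  have hline₁ : y₁ = ℓ * x₁ + ν := by rw [hν]; ring
  have hν0 : ν ≠ 0 := by
    intro h0
    rw [h0, map_zero, zero_mul, le_zero_iff, Valuation.zero_iff] at hvℓ
    exact hy₁0 (by rw [hline₁, hvℓ, h0]; ring)
  have hvν : 0 < v ν := by rwa [Valuation.pos_iff]
  have hzw₁ : 1 = -(ℓ * z₁) - ν * w₁ := by
    rw [hz₁', hw₁']; field_simp; linear_combination hline₁
  have h1r : 1 ≤ v ν * r ^ 3 := by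
    have : v (-(ℓ * z₁) - ν * w₁) ≤ v ν * r ^ 3 := by
      apply v.map_sub_le
      · rw [Valuation.map_neg]
        calc v (ℓ * z₁) ≤ (v ν * r ^ 2) * r := v_mul_le hvℓ hz₁
          _ = v ν * r ^ 3 := by rw [mul_assoc, ← pow_succ]
      · exact v_mul_le le_rfl hw₁
    rwa [← hzw₁, map_one] at this
  -- the point y₂ is on the line
  have hline₂ : y₂ = ℓ * x₂ + ν := by
    by_cases hx : x₁ = x₂
    · have hy : y₁ ≠ W.toAffine.negY x₂ y₂ := fun h => hxy ⟨hx, h⟩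
      obtain rfl := hx
      obtain rfl := Y_eq_of_Y_ne h₁ h₂ rfl hy
      exact hline₁
    · rw [slope_of_X_ne hx] at hℓ
      have hd : x₁ - x₂ ≠ 0 := sub_ne_zero.mpr hx
      rw [hν, hℓ]; field_simp; ring
  obtain ⟨y₃', hy₃'⟩ : ∃ y₃', y₃' = ℓ * x₃ + ν := ⟨_, rfl⟩
  have hy₃n : y₃' = W.toAffine.negAddY x₁ x₂ y₁ ℓ := by
    rw [hy₃', negAddY, ← hx₃, hν]; ring
  have hV1 := vieta₁ hx₃
  obtain ⟨hV2, hV3⟩ := vieta₂ h₁ h₂ hxy hℓ hν hx₃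
  obtain ⟨S, hS⟩ : ∃ S, S = ν ^ 3 - W.a₂ * ℓ * ν ^ 2 + W.a₄ * ℓ ^ 2 * ν - W.a₆ * ℓ ^ 3 := ⟨_, rfl⟩
  obtain ⟨T, hT⟩ : ∃ T, T = W.a₃ * ℓ ^ 2 * ν - 3 * W.a₆ * ℓ ^ 2 + 2 * W.a₄ * ℓ * ν -
    W.a₁ * ℓ * ν ^ 2 - W.a₂ * ν ^ 2 := ⟨_, rfl⟩
  have hprod : y₁ * y₂ * y₃' = S := by
    rw [hline₁, hline₂, hy₃', hS]
    linear_combination ℓ ^ 3 * hV3 + ℓ ^ 2 * ν * hV2 + ℓ * ν ^ 2 * hV1
  have hsum : x₁ * y₂ * y₃' + x₂ * y₁ * y₃' + x₃ * y₁ * y₂ = T := by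
    rw [hline₁, hline₂, hy₃', hT]
    linear_combination 3 * ℓ ^ 2 * hV3 + 2 * ℓ * ν * hV2 + ν ^ 2 * hV1
  have hr2lt : r ^ 2 < 1 := lt_of_le_of_lt hr21 hr
  have hn3 : 0 < v ν ^ 3 := pow_pos hvν 3
  have hB : v ν ^ 3 * r ^ 2 < v ν ^ 3 := by
    simpa using mul_lt_mul_of_pos_left hr2lt hn3
  have b1 : v (ℓ * ν ^ 2) ≤ v ν ^ 3 * r ^ 2 := by
    calc v (ℓ * ν ^ 2) ≤ (v ν * r ^ 2) * v ν ^ 2 := v_mul_le hvℓ (v_pow_le le_rfl 2)
      _ = v ν ^ 3 * r ^ 2 := by rw [mul_right_comm, ← pow_succ']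
  have hvℓ' : v ℓ ≤ v ν := hvℓ.trans (by simpa using mul_le_mul_right hr2lt.le (v ν))
  have b2 : v (ℓ ^ 2 * ν) ≤ v ν ^ 3 * r ^ 2 := by
    rw [sq, mul_right_comm]
    calc v (ℓ * ν * ℓ) ≤ (v ν * v ν) * (v ν * r ^ 2) := v_mul_le (v_mul_le hvℓ' le_rfl) hvℓ
      _ = v ν ^ 3 * r ^ 2 := by rw [← mul_assoc, pow_three']
  have b3 : v (ℓ ^ 3) ≤ v ν ^ 3 * r ^ 2 := by
    rw [pow_three']
    calc v (ℓ * ℓ * ℓ) ≤ (v ν * v ν) * (v ν * r ^ 2) := v_mul_le (v_mul_le hvℓ' hvℓ') hvℓ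
      _ = v ν ^ 3 * r ^ 2 := by rw [← mul_assoc, pow_three']
  have h1n : 1 ≤ v ν * r ^ 2 := h1r.trans (mul_le_mul_right hr32 _)
  have h1n' : 1 ≤ v ν := h1n.trans (by simpa using mul_le_mul_right hr2lt.le (v ν))
  have b4 : v (ν ^ 2) ≤ v ν ^ 3 * r ^ 2 := by
    calc v (ν ^ 2) = v ν ^ 2 * 1 := by rw [map_pow, mul_one]
      _ ≤ v ν ^ 2 * (v ν * r ^ 2) := mul_le_mul_right h1n _
      _ = v ν ^ 3 * r ^ 2 := by rw [← mul_assoc, ← pow_succ]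
  have b5 : v (ℓ * ν) ≤ v ν ^ 3 * r ^ 2 :=
    (v_mul_le hvℓ' le_rfl).trans (by rw [← sq, ← map_pow]; exact b4)
  have b6 : v (ℓ ^ 2) ≤ v ν ^ 3 * r ^ 2 := by
    rw [sq]; exact (v_mul_le hvℓ' hvℓ').trans (by rw [← sq, ← map_pow]; exact b4)
  have hvS : v S = v ν ^ 3 := by
    have hS' : S = ν ^ 3 - (W.a₂ * (ℓ * ν ^ 2) - W.a₄ * (ℓ ^ 2 * ν) + W.a₆ * ℓ ^ 3) := by
      rw [hS]; ring
    rw [hS', v.map_sub_eq_of_lt_left, map_pow]
    rw [map_pow]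
    refine lt_of_le_of_lt ?_ hB
    exact v.map_add_le (v.map_sub_le (v_imul_le hW.a₂ b1) (v_imul_le hW.a₄ b2))
      (v_imul_le hW.a₆ b3)
  have hvT : v T ≤ v ν ^ 3 * r ^ 2 := by
    have hT' : T = W.a₃ * (ℓ ^ 2 * ν) - 3 * (W.a₆ * ℓ ^ 2) + 2 * (W.a₄ * (ℓ * ν)) -
      W.a₁ * (ℓ * ν ^ 2) - W.a₂ * ν ^ 2 := by rw [hT]; ring
    rw [hT']
    exact v.map_sub_le (v.map_sub_le (v.map_add_le (v.map_sub_le (v_imul_le hW.a₃ b2)
      (v_imul_le v_three_le_one (v_imul_le hW.a₆ b6)))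
      (v_imul_le v_two_le_one (v_imul_le hW.a₄ b5))) (v_imul_le hW.a₁ b1)) (v_imul_le hW.a₂ b4)
  have hS0 : S ≠ 0 := by
    intro h0; rw [h0, map_zero] at hvS; exact hn3.ne hvS
  have hy₃'0 : y₃' ≠ 0 := by
    rintro h0; rw [h0, mul_zero] at hprod; exact hS0 hprod.symm
  obtain ⟨z₃', hz₃'⟩ : ∃ z₃', z₃' = -x₃ / y₃' := ⟨_, rfl⟩
  have hzsum : z₁ + z₂ + z₃' = -(T / S) := by
    rw [← hprod, ← hsum, hz₁', hz₂', hz₃']
    field_simp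
    ring
  have hvzsum : v (z₁ + z₂ + z₃') ≤ r ^ 2 := by
    rw [hzsum, Valuation.map_neg, map_div₀, hvS, div_le_iff₀ hn3, mul_comm]
    exact hvT
  have hvz₃' : v z₃' ≤ r := by
    have : z₃' = (z₁ + z₂ + z₃') - (z₁ + z₂) := by ring
    rw [this]
    exact v.map_sub_le (hvzsum.trans hr21) (v.map_add_le hz₁ hz₂)
  have hvy₃' : 1 < v y₃' := by
    by_contra hle
    push Not at hle
    have hx₃z : x₃ = -(z₃' * y₃') := by rw [hz₃']; field_simp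
    have h1 : v x₃ ≤ r := by
      rw [hx₃z, Valuation.map_neg, mul_comm]
      exact v_imul_le hle hvz₃'
    have h2 : v (ℓ * x₃) < v ν := by
      refine lt_of_le_of_lt (v_mul_le hvℓ' h1) ?_
      simpa using mul_lt_mul_of_pos_left hr hvν
    have h3 : v y₃' = v ν := by
      rw [hy₃', v.map_add_eq_of_lt_right h2]
    rw [h3] at hle
    have h4 : v ν * r ^ 2 < v ν := by simpa using mul_lt_mul_of_pos_left hr2lt hvν
    exact absurd (lt_of_le_of_lt h1n h4) (not_lt.mpr hle)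
  have hE₃ : W.toAffine.Equation x₃ y₃' := by
    rw [hy₃n, hx₃, hℓ]
    exact equation_negAdd h₁ h₂ hxy
  have hvx₃ : 1 < v x₃ := one_lt_v_x_of_one_lt_v_y hW hE₃ hvy₃'
  refine ⟨hvx₃, ?_⟩
  obtain ⟨hxy₃, -⟩ := v_y_sq hW hE₃ hvx₃
  have hy₃v : y₃ = -(y₃' + (W.a₁ * x₃ + W.a₃)) := by
    rw [hy₃, addY, ← hx₃, ← hy₃n, negY]; ring
  have hs : v (W.a₁ * x₃ + W.a₃) ≤ v x₃ :=
    v.map_add_le (v_imul_le hW.a₁ le_rfl) (hW.a₃.trans hvx₃.le)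
  have hs' : v (y₃' + (W.a₁ * x₃ + W.a₃)) = v y₃' :=
    v.map_add_eq_of_lt_left (lt_of_le_of_lt hs hxy₃)
  have hs0 : y₃' + (W.a₁ * x₃ + W.a₃) ≠ 0 := by
    intro h0; rw [h0, map_zero] at hs'; exact hy₃'0 ((Valuation.zero_iff v).mp hs'.symm)
  have hdiff : v (-x₃ / y₃ + z₃') ≤ r ^ 2 := by
    have : -x₃ / y₃ + z₃' = -(x₃ / y₃' * ((W.a₁ * x₃ + W.a₃) / (y₃' + (W.a₁ * x₃ + W.a₃)))) := by
      rw [hy₃v, hz₃']
      generalize W.a₁ * x₃ + W.a₃ = s at hs0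
      field_simp
      ring
    rw [this, Valuation.map_neg, sq]
    refine v_mul_le ?_ ?_
    · rw [hz₃', neg_div, Valuation.map_neg] at hvz₃'; exact hvz₃'
    · rw [map_div₀, hs']
      refine le_trans ?_ hvz₃'
      rw [hz₃', neg_div, Valuation.map_neg, map_div₀]
      exact div_le_div_of_nonneg_right hs zero_le
  have : -x₃ / y₃ - z₁ - z₂ = (-x₃ / y₃ + z₃') - (z₁ + z₂ + z₃') := by ring
  rw [this]
  exact v.map_sub_le hdiff hvzsum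

/-- The point `P` is in the kernel of reduction. -/
def InKer (v : Valuation K Γ₀) (P : W.toAffine.Point) : Prop :=
  ∀ x y h, P = .some x y h → 1 < v x

/-- The parameter `z = -x/y`. -/
def zc : W.toAffine.Point → K
  | 0 => 0
  | .some x y _ => -x / y

@[simp] lemma zc_zero : zc (0 : W.toAffine.Point) = 0 := rfl

@[simp] lemma zc_some {x y : K} (h : W.toAffine.Nonsingular x y) :
    zc (.some x y h : W.toAffine.Point) = -x / y := rfl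

lemma inKer_zero : InKer v (0 : W.toAffine.Point) := by
  intro x y h h0
  exact absurd h0.symm (Point.some_ne_zero _)

lemma inKer_some {x y : K} (h : W.toAffine.Nonsingular x y) :
    InKer v (.some x y h : W.toAffine.Point) ↔ 1 < v x := by
  constructor
  · intro H; exact H x y h rfl
  · intro H x' y' h' e
    rw [Point.some.injEq] at e
    rw [← e.1]; exact H

lemma v_zc_lt_one (hW : IntCoeff v W) {P : W.toAffine.Point} (hP : InKer v P) : v (zc P) < 1 := by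
  rcases P with _ | ⟨x, y, h⟩
  · change v (zc 0) < 1
    rw [zc_zero, map_zero]; exact zero_lt_one
  · rw [inKer_some] at hP
    exact (v_zw hW h.1 hP rfl rfl).1

lemma v_zc_ne_zero (hW : IntCoeff v W) {P : W.toAffine.Point} (hP : InKer v P) (h0 : P ≠ 0) :
    v (zc P) ≠ 0 := by
  rcases P with _ | ⟨x, y, h⟩
  · exact absurd rfl h0
  · rw [inKer_some] at hP
    exact (v_zw hW h.1 hP rfl rfl).2.2

variable [DecidableEq K]

lemma ker_add (hW : IntCoeff v W) {P Q : W.toAffine.Point} (hP : InKer v P) (hQ : InKer v Q)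
    {r : Γ₀} (hr : r < 1) (hzP : v (zc P) ≤ r) (hzQ : v (zc Q) ≤ r) :
    InKer v (P + Q) ∧ v (zc (P + Q) - zc P - zc Q) ≤ r ^ 2 := by
  rcases P with _ | ⟨x₁, y₁, h₁⟩
  · change InKer v (0 + Q) ∧ v (zc (0 + Q) - zc 0 - zc Q) ≤ r ^ 2
    rw [zero_add]
    refine ⟨hQ, ?_⟩
    rw [zc_zero, sub_zero, sub_self, map_zero]; exact zero_le
  rcases Q with _ | ⟨x₂, y₂, h₂⟩
  · change InKer v (_ + 0) ∧ v (zc (_ + 0) - _ - zc 0) ≤ r ^ 2
    rw [add_zero]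
    refine ⟨hP, ?_⟩
    rw [zc_zero, sub_zero, sub_self, map_zero]; exact zero_le
  rw [inKer_some] at hP hQ
  rw [zc_some] at hzP hzQ
  by_cases hxy : x₁ = x₂ ∧ y₁ = W.toAffine.negY x₂ y₂
  · rw [Point.add_of_Y_eq hxy.1 hxy.2]
    refine ⟨inKer_zero, ?_⟩
    rw [zc_zero, zc_some, zc_some]
    obtain ⟨e1, e2⟩ := hxy
    subst e1
    obtain ⟨h1, h2⟩ := v_y_sq hW h₁.1 hP
    obtain ⟨h3, h4⟩ := v_y_sq hW h₂.1 hQ
    have hy₁0 : y₁ ≠ 0 := by rintro rfl; simp at h1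
    have hy₂0 : y₂ ≠ 0 := by rintro rfl; simp at h3
    have e : 0 - -x₁ / y₁ - -x₁ / y₂ = -(x₁ / y₁ * ((W.a₁ * x₁ + W.a₃) / y₂)) := by
      rw [negY] at e2
      field_simp
      linear_combination x₁ * e2
    rw [e, Valuation.map_neg, sq]
    rw [neg_div, Valuation.map_neg] at hzP hzQ
    refine v_mul_le hzP ?_
    refine le_trans ?_ hzQ
    rw [map_div₀, map_div₀]
    refine div_le_div_of_nonneg_right ?_ zero_le
    exact v.map_add_le (v_imul_le hW.a₁ le_rfl) (hW.a₃.trans hQ.le)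
  · rw [Point.add_some hxy, inKer_some, zc_some, zc_some, zc_some]
    exact add_estimate hW h₁.1 h₂.1 hP hQ hxy rfl rfl rfl hr hzP hzQ

lemma ker_nsmul (hW : IntCoeff v W) {P : W.toAffine.Point} (hP : InKer v P) (n : ℕ) :
    InKer v (n • P) ∧ v (zc (n • P) - n * zc P) ≤ v (zc P) ^ 2 := by
  have hr := v_zc_lt_one hW hP
  have hr21 : v (zc P) ^ 2 ≤ v (zc P) := by
    simpa using pow_le_pow_right_of_le_one' hr.le (show 1 ≤ 2 by norm_num)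
  induction n with
  | zero =>
    refine ⟨by rw [zero_smul]; exact inKer_zero, ?_⟩
    rw [zero_smul, zc_zero, Nat.cast_zero, zero_mul, sub_zero, map_zero]; exact zero_le
  | succ n ih =>
    obtain ⟨ih1, ih2⟩ := ih
    have h1 : v (zc (n • P)) ≤ v (zc P) := by
      have : zc (n • P) = (zc (n • P) - n * zc P) + n * zc P := by ring
      rw [this]
      exact v.map_add_le (ih2.trans hr21) (v_imul_le (v_nat_le_one n) le_rfl)
    obtain ⟨h2, h3⟩ := ker_add hW ih1 hP hr h1 le_rfl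
    rw [← succ_nsmul] at h2 h3
    refine ⟨h2, ?_⟩
    have : zc ((n + 1) • P) - ((n + 1 : ℕ) : K) * zc P =
        (zc ((n + 1) • P) - zc (n • P) - zc P) + (zc (n • P) - n * zc P) := by
      push_cast; ring
    rw [this]
    exact v.map_add_le h3 ih2

/-- The kernel of reduction has no `n`-torsion when `n` is a `v`-unit. -/
theorem ker_torsion_free (hW : IntCoeff v W) {P : W.toAffine.Point} (hP : InKer v P) {n : ℕ}
    (hn : v (n : K) = 1) (h : n • P = 0) : P = 0 := by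
  by_contra h0
  have hr := v_zc_lt_one hW hP
  have hr0 := v_zc_ne_zero hW hP h0
  have h1 := (ker_nsmul hW hP n).2
  rw [h, zc_zero, zero_sub, Valuation.map_neg, map_mul, hn, one_mul] at h1
  have h2 : v (zc P) ^ 2 < v (zc P) := by
    rw [sq]
    simpa using mul_lt_mul_of_pos_left hr (zero_lt_iff.mpr hr0)
  exact absurd h1 (not_le.mpr h2)

end Val

end Fermat.Agent.ECRed
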