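import Mathlib.AlgebraicGeometry.EllipticCurve.Affine.Point
import Mathlib.AlgebraicGeometry.EllipticCurve.VariableChange
import Mathlib.Tactic.FieldSimp
import Mathlib.Tactic.LinearCombination

/-! # Points of a Weierstrass curve under an admissible change of variables

For `C : VariableChange F` and `W : WeierstrassCurve F` we construct the group isomorphism
`(C • W).Point ≃+ W.Point`, `(x, y) ↦ (u² x + r, u³ y + u² s x + t)`. -/

set_option autoImplicit false

namespace Fermat.Agent.ECRed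

open WeierstrassCurve WeierstrassCurve.Affine

variable {F : Type*} [Field F] (W : WeierstrassCurve F) (C : VariableChange F)

/-- `x`-coordinate of the change of variables. -/
def vcX (x : F) : F := (C.u : F) ^ 2 * x + C.r

/-- `y`-coordinate of the change of variables. -/
def vcY (x y : F) : F := (C.u : F) ^ 3 * y + (C.u : F) ^ 2 * C.s * x + C.t

lemma vcX_injective : Function.Injective (vcX C) := by
  intro x x' h
  have hu : (C.u : F) ≠ 0 := C.u.ne_zero
  simp only [vcX, add_left_inj] at h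
  exact mul_left_cancel₀ (pow_ne_zero 2 hu) h

lemma equation_vc (x y : F) :
    W.toAffine.Equation (vcX C x) (vcY C x y) ↔ (C • W).toAffine.Equation x y := by
  have hu : (C.u : F) ≠ 0 := C.u.ne_zero
  rw [equation_iff', equation_iff']
  have key : (vcY C x y) ^ 2 + W.a₁ * vcX C x * vcY C x y + W.a₃ * vcY C x y -
      ((vcX C x) ^ 3 + W.a₂ * (vcX C x) ^ 2 + W.a₄ * vcX C x + W.a₆) =
      (C.u : F) ^ 6 * (y ^ 2 + (C • W).a₁ * x * y + (C • W).a₃ * y -
        (x ^ 3 + (C • W).a₂ * x ^ 2 + (C • W).a₄ * x + (C • W).a₆)) := by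
    simp only [variableChange_def, vcX, vcY, Units.val_inv_eq_inv_val]
    field_simp
    ring
  change _ = (0 : F) ↔ _ = (0 : F)
  rw [key]
  simp [hu]

lemma nonsingular_vc (x y : F) :
    W.toAffine.Nonsingular (vcX C x) (vcY C x y) ↔ (C • W).toAffine.Nonsingular x y := by
  have hu : (C.u : F) ≠ 0 := C.u.ne_zero
  rw [nonsingular_iff', nonsingular_iff', equation_vc]
  have k1 : (C.u : F) ^ 3 * (2 * y + (C • W).a₁ * x + (C • W).a₃) =
      2 * vcY C x y + W.a₁ * vcX C x + W.a₃ := by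
    simp only [variableChange_def, vcX, vcY, Units.val_inv_eq_inv_val]
    field_simp
    ring
  have k2 : (C.u : F) ^ 4 * ((C • W).a₁ * y - (3 * x ^ 2 + 2 * (C • W).a₂ * x + (C • W).a₄)) =
      (W.a₁ * vcY C x y - (3 * (vcX C x) ^ 2 + 2 * W.a₂ * vcX C x + W.a₄)) +
        C.s * (2 * vcY C x y + W.a₁ * vcX C x + W.a₃) := by
    simp only [variableChange_def, vcX, vcY, Units.val_inv_eq_inv_val]
    field_simp
    ring
  refine and_congr_right fun _ => ?_
  change (_ ≠ (0 : F) ∨ _ ≠ (0 : F)) ↔ (_ ≠ (0 : F) ∨ _ ≠ (0 : F))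
  rw [← not_and_or, ← not_and_or, not_iff_not]
  constructor
  · rintro ⟨h1, h2⟩
    rw [h1, h2] at k2
    rw [h2] at k1
    exact ⟨(mul_eq_zero.mp (k2.trans (by ring))).resolve_left (pow_ne_zero 4 hu),
      (mul_eq_zero.mp k1).resolve_left (pow_ne_zero 3 hu)⟩
  · rintro ⟨h1, h2⟩
    rw [h2, mul_zero] at k1
    rw [h1, ← k1, mul_zero, mul_zero, add_zero] at k2
    exact ⟨k2.symm, k1.symm⟩

lemma negY_vc (x y : F) :
    W.toAffine.negY (vcX C x) (vcY C x y) = vcY C x ((C • W).toAffine.negY x y) := by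
  have hu : (C.u : F) ≠ 0 := C.u.ne_zero
  simp only [negY, variableChange_def, vcX, vcY, Units.val_inv_eq_inv_val]
  field_simp
  ring

lemma vcY_injective (x : F) : Function.Injective (vcY C x) := by
  intro y y' h
  have hu : (C.u : F) ≠ 0 := C.u.ne_zero
  simp only [vcY, add_left_inj] at h
  exact mul_left_cancel₀ (pow_ne_zero 3 hu) h

lemma addX_vc (x₁ x₂ ℓ : F) :
    W.toAffine.addX (vcX C x₁) (vcX C x₂) (C.u * ℓ + C.s) = vcX C ((C • W).toAffine.addX x₁ x₂ ℓ) := by
  have hu : (C.u : F) ≠ 0 := C.u.ne_zero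
  simp only [addX, variableChange_def, vcX, Units.val_inv_eq_inv_val]
  field_simp
  ring

lemma addY_vc (x₁ x₂ y₁ ℓ : F) :
    W.toAffine.addY (vcX C x₁) (vcX C x₂) (vcY C x₁ y₁) (C.u * ℓ + C.s) =
      vcY C ((C • W).toAffine.addX x₁ x₂ ℓ) ((C • W).toAffine.addY x₁ x₂ y₁ ℓ) := by
  rw [addY, addX_vc, addY, ← negY_vc]
  congr 1
  have hu : (C.u : F) ≠ 0 := C.u.ne_zero
  simp only [negAddY, addX_vc]
  simp only [vcX, vcY]
  ring

/-- The map on points induced by a change of variables. -/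
def vcFun : (C • W).toAffine.Point → W.toAffine.Point
  | 0 => 0
  | .some x y h => .some (vcX C x) (vcY C x y) ((nonsingular_vc W C x y).mpr h)

@[simp] lemma vcFun_zero : vcFun W C 0 = 0 := rfl

@[simp] lemma vcFun_some {x y : F} (h : (C • W).toAffine.Nonsingular x y) :
    vcFun W C (.some x y h) = .some (vcX C x) (vcY C x y) ((nonsingular_vc W C x y).mpr h) := rfl

variable [DecidableEq F]

lemma slope_vc {x₁ x₂ y₁ y₂ : F} (h₁ : (C • W).toAffine.Equation x₁ y₁)
    (h₂ : (C • W).toAffine.Equation x₂ y₂)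
    (h : ¬ (x₁ = x₂ ∧ y₁ = (C • W).toAffine.negY x₂ y₂)) :
    W.toAffine.slope (vcX C x₁) (vcX C x₂) (vcY C x₁ y₁) (vcY C x₂ y₂) =
      C.u * (C • W).toAffine.slope x₁ x₂ y₁ y₂ + C.s := by
  have hu : (C.u : F) ≠ 0 := C.u.ne_zero
  by_cases hx : x₁ = x₂
  · subst hx
    have hy : y₁ ≠ (C • W).toAffine.negY x₁ y₂ := fun h' => h ⟨rfl, h'⟩
    have hY : vcY C x₁ y₁ ≠ W.toAffine.negY (vcX C x₁) (vcY C x₁ y₂) := by
      rw [negY_vc]
      exact fun h' => hy (vcY_injective C x₁ h')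
    obtain rfl : y₁ = y₂ := Y_eq_of_Y_ne h₁ h₂ rfl hy
    rw [slope_of_Y_ne rfl hY, slope_of_Y_ne rfl hy]
    have d1 : vcY C x₁ y₁ - W.toAffine.negY (vcX C x₁) (vcY C x₁ y₁) =
        (C.u : F) ^ 3 * (y₁ - (C • W).toAffine.negY x₁ y₁) := by
      rw [negY_vc]; simp only [vcY]; ring
    have hd : y₁ - (C • W).toAffine.negY x₁ y₁ ≠ 0 := sub_ne_zero.mpr hy
    rw [d1, div_eq_iff (mul_ne_zero (pow_ne_zero 3 hu) hd)]
    have e : ∀ A B D E S : F, D ≠ 0 → (E * (A / D) + S) * (B * D) = B * (E * A + S * D) := by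
      intro A B D E S hD
      field_simp
    rw [e _ _ _ _ _ hd]
    simp only [negY, variableChange_def, vcX, vcY, Units.val_inv_eq_inv_val]
    field_simp
    ring
  · have hX : vcX C x₁ ≠ vcX C x₂ := fun h' => hx (vcX_injective C h')
    rw [slope_of_X_ne hX, slope_of_X_ne hx]
    have h1 : x₁ - x₂ ≠ 0 := sub_ne_zero.mpr hx
    have h2 : vcX C x₁ - vcX C x₂ ≠ 0 := sub_ne_zero.mpr hX
    rw [div_eq_iff h2]
    simp only [vcX, vcY]
    field_simp
    ring

lemma vcFun_add (P Q : (C • W).toAffine.Point) :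
    vcFun W C (P + Q) = vcFun W C P + vcFun W C Q := by
  rcases P with _ | ⟨x₁, y₁, h₁⟩ <;> rcases Q with _ | ⟨x₂, y₂, h₂⟩
  · rfl
  · change vcFun W C (0 + Point.some x₂ y₂ h₂) = 0 + _
    rw [zero_add, zero_add]
  · change vcFun W C (Point.some x₁ y₁ h₁ + 0) = _ + 0
    rw [add_zero, add_zero]
  · by_cases hxy : x₁ = x₂ ∧ y₁ = (C • W).toAffine.negY x₂ y₂
    · rw [Point.add_of_Y_eq hxy.1 hxy.2, vcFun_zero, vcFun_some, vcFun_some]
      symm
      apply Point.add_of_Y_eq
      · rw [hxy.1]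
      · rw [negY_vc, hxy.1, hxy.2]
    · rw [Point.add_some hxy, vcFun_some, vcFun_some, vcFun_some]
      have hxy' : ¬ (vcX C x₁ = vcX C x₂ ∧
          vcY C x₁ y₁ = W.toAffine.negY (vcX C x₂) (vcY C x₂ y₂)) := by
        rintro ⟨hX, hY⟩
        have hx := vcX_injective C hX
        subst hx
        rw [negY_vc] at hY
        exact hxy ⟨rfl, vcY_injective C _ hY⟩
      rw [Point.add_some hxy']
      rw [Point.some.injEq, slope_vc W C h₁.1 h₂.1 hxy, addX_vc, addY_vc]
      exact ⟨rfl, rfl⟩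

omit [DecidableEq F] in
lemma vcFun_bijective : Function.Bijective (vcFun W C) := by
  have hu : (C.u : F) ≠ 0 := C.u.ne_zero
  constructor
  · rintro (_ | ⟨x₁, y₁, h₁⟩) (_ | ⟨x₂, y₂, h₂⟩) h
    · rfl
    · exact absurd h.symm (Point.some_ne_zero _)
    · exact absurd h (Point.some_ne_zero _)
    · rw [vcFun_some, vcFun_some, Point.some.injEq] at h
      obtain ⟨hX, hY⟩ := h
      obtain rfl := vcX_injective C hX
      obtain rfl := vcY_injective C _ hY
      rfl
  · rintro (_ | ⟨x, y, h⟩)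
    · exact ⟨0, rfl⟩
    · have e1 : vcX C ((x - C.r) / C.u ^ 2) = x := by
        simp only [vcX]; field_simp; ring
      have e2 : vcY C ((x - C.r) / C.u ^ 2)
          ((y - C.t - (C.u : F) ^ 2 * C.s * ((x - C.r) / C.u ^ 2)) / C.u ^ 3) = y := by
        simp only [vcY]; field_simp; ring
      refine ⟨.some ((x - C.r) / C.u ^ 2)
        ((y - C.t - (C.u : F) ^ 2 * C.s * ((x - C.r) / C.u ^ 2)) / C.u ^ 3)
        ((nonsingular_vc W C _ _).mp (by rw [e1, e2]; exact h)), ?_⟩
      rw [vcFun_some, Point.some.injEq]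
      exact ⟨e1, e2⟩

/-- The group isomorphism on points induced by a change of variables. -/
noncomputable def vcEquiv : (C • W).toAffine.Point ≃+ W.toAffine.Point :=
  AddEquiv.ofBijective
    (⟨⟨vcFun W C, rfl⟩, vcFun_add W C⟩ : (C • W).toAffine.Point →+ W.toAffine.Point)
    (vcFun_bijective W C)

@[simp] lemma vcEquiv_apply (P : (C • W).toAffine.Point) : vcEquiv W C P = vcFun W C P := rfl

end Fermat.Agent.ECRed
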