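import Mathlib.FieldTheory.IsAlgClosed.AlgebraicClosure
import Fermat.Prelude.Def_FLTPrelim_Ramification
import Fermat.Agent.ECRed.VarChange
import Fermat.Agent.ECRed.Kernel

/-! # Inertia groups and valuations; Galois equivariance of changes of variables -/

set_option autoImplicit false

namespace Fermat.Agent.ECRed

open WeierstrassCurve WeierstrassCurve.Affine

section inertia

variable {L : Type*} [Field L] {K : Type*} [Field K] [Algebra K L]

/-- An element of the inertia group acts trivially on the residue field. -/
lemma inertia_sub (A : ValuationSubring L) {σ : L ≃ₐ[K] L} (hσ : σ ∈ A.inertiaSubgroupIn K)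
    {x : L} (hx : A.valuation x ≤ 1) : A.valuation (σ x - x) < 1 := by
  obtain ⟨τ, hτ, rfl⟩ := hσ
  rw [A.valuation_le_one_iff] at hx
  have h1 : τ • (⟨x, hx⟩ : A) - ⟨x, hx⟩ ∈ IsLocalRing.maximalIdeal A := by
    rw [← IsLocalRing.residue_eq_zero_iff, map_sub, sub_eq_zero]
    have h2 : MulSemiringAction.toRingAut (A.decompositionSubgroup K)
        (IsLocalRing.ResidueField A) τ = 1 := hτ
    have h3 := congrArg (fun f => f (IsLocalRing.residue A ⟨x, hx⟩)) h2
    exact h3
  rw [A.valuation_lt_one_iff] at h1
  exact h1

/-- An element of the inertia group preserves the valuation subring. -/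
lemma inertia_valuation_le_one (A : ValuationSubring L) {σ : L ≃ₐ[K] L}
    (hσ : σ ∈ A.inertiaSubgroupIn K) {x : L} (hx : A.valuation x ≤ 1) : A.valuation (σ x) ≤ 1 := by
  have h := inertia_sub A hσ hx
  have : σ x = (σ x - x) + x := by ring
  rw [this]
  exact A.valuation.map_add_le h.le hx

/-- Integers prime to `q` are units at a place above `q`. -/
lemma valuation_int_eq_one (A : ValuationSubring L) {q : ℕ} (hq : A.LiesOverPrime q) {n : ℤ}
    (hn : IsCoprime n (q : ℤ)) : A.valuation (n : L) = 1 := by
  refine le_antisymm (v_int_le_one n) ?_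
  by_contra hlt
  push Not at hlt
  obtain ⟨a, b, hab⟩ := hn
  have hq' : A.valuation (q : L) < 1 := A.mem_nonunits_iff.mp hq
  have h1 : ((a : L) * (n : L) + (b : L) * (q : L)) = 1 := by exact_mod_cast congrArg (Int.cast (R := L)) hab
  have h2 : A.valuation ((a : L) * (n : L) + (b : L) * (q : L)) < 1 :=
    A.valuation.map_add_lt (lt_of_le_of_lt (v_imul_le (v_int_le_one a) le_rfl) hlt)
      (lt_of_le_of_lt (v_imul_le (v_int_le_one b) le_rfl) hq')
  rw [h1, map_one] at h2
  exact lt_irrefl _ h2

/-- Natural numbers prime to `q` are units at a place above `q`. -/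
lemma valuation_nat_eq_one (A : ValuationSubring L) {q : ℕ} (hq : A.LiesOverPrime q) {n : ℕ}
    (hn : Nat.Coprime n q) : A.valuation (n : L) = 1 := by
  have := valuation_int_eq_one A hq (n := (n : ℤ)) (by exact_mod_cast Nat.isCoprime_iff_coprime.mpr hn)
  simpa using this

/-- Integers divisible by `q` are nonunits at a place above `q`. -/
lemma valuation_int_lt_one (A : ValuationSubring L) {q : ℕ} (hq : A.LiesOverPrime q) {n : ℤ}
    (hn : (q : ℤ) ∣ n) : A.valuation (n : L) < 1 := by
  obtain ⟨m, rfl⟩ := hn
  have hq' : A.valuation (q : L) < 1 := A.mem_nonunits_iff.mp hq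
  push_cast
  rw [mul_comm]
  exact lt_of_le_of_lt (v_imul_le (v_int_le_one m) le_rfl) hq'

end inertia

section transfer

variable {F : Type*} [Field F] [DecidableEq F]

/-- Variant of `vcEquiv` for a curve equal to a change of variables of `W`. -/
noncomputable def vcEquivOfEq {W W' : WeierstrassCurve F} (C : VariableChange F)
    (h : W' = C • W) : W'.toAffine.Point ≃+ W.toAffine.Point := by
  subst h
  exact vcEquiv W C

lemma vcEquivOfEq_some {W W' : WeierstrassCurve F} (C : VariableChange F)
    (h : W' = C • W) {x y : F} (hxy : W'.toAffine.Nonsingular x y) :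
    ∃ h', vcEquivOfEq C h (.some x y hxy) = .some (vcX C x) (vcY C x y) h' := by
  subst h
  exact ⟨(nonsingular_vc W C x y).mpr hxy, rfl⟩

end transfer

section transfer2

open scoped WeierstrassCurve.Affine

variable {F : Type*} [Field F] {K : Type*} [Field K] [Algebra F K]

lemma baseChange_vc (W : WeierstrassCurve F) (C : VariableChange F) :
    (C • W).baseChange K = (C.map (algebraMap F K)) • (W.baseChange K) :=
  (WeierstrassCurve.map_variableChange W C (algebraMap F K)).symm

variable [DecidableEq K]

/-- The isomorphism on `K`-points induced by a change of variables over the base field `F`. -/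
noncomputable def vcBase (W : WeierstrassCurve F) (C : VariableChange F)
    {W' : WeierstrassCurve F} (h : W' = C • W) :
    (W'.toAffine.baseChange K).Point ≃+ (W.toAffine.baseChange K).Point :=
  vcEquivOfEq (W := W.baseChange K) (W' := W'.baseChange K) (C.map (algebraMap F K))
    (by rw [h]; exact baseChange_vc W C)

lemma vcBase_equivariant (W : WeierstrassCurve F) (C : VariableChange F)
    {W' : WeierstrassCurve F} (h : W' = C • W) (σ : K ≃ₐ[F] K)
    (P : (W'.toAffine.baseChange K).Point) :
    vcBase (K := K) W C h (σ • P) = σ • vcBase (K := K) W C h P := by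
  rcases P with _ | ⟨x, y, hxy⟩
  · change vcBase (K := K) W C h (σ • 0) = σ • vcBase (K := K) W C h 0
    rw [smul_zero, map_zero, smul_zero]
  · rw [Point.algEquiv_smul_def, Point.algEquiv_smul_def, Point.map_some]
    obtain ⟨h1, e1⟩ := vcEquivOfEq_some (W := W.baseChange K) (W' := W'.baseChange K)
      (C.map (algebraMap F K)) (by rw [h]; exact baseChange_vc W C) hxy
    obtain ⟨h2, e2⟩ := vcEquivOfEq_some (W := W.baseChange K) (W' := W'.baseChange K)
      (C.map (algebraMap F K)) (by rw [h]; exact baseChange_vc W C)
      ((W'.toAffine.baseChange_nonsingular σ.toAlgHom.injective ..).mpr hxy)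
    change vcEquivOfEq _ _ _ = Point.map _ (vcEquivOfEq _ _ _)
    rw [e1, e2, Point.map_some, Point.some.injEq]
    constructor
    · simp [vcX, VariableChange.map]
    · simp [vcY, VariableChange.map]

/-- If an automorphism fixes all `n`-torsion points on a model, it fixes all `n`-torsion points
on any other model over the base field. -/
theorem fixed_of_model (W : WeierstrassCurve F) (C : VariableChange F)
    {W' : WeierstrassCurve F} (h : W' = C • W) (σ : K ≃ₐ[F] K) {n : ℕ}
    (H : ∀ P : (W.toAffine.baseChange K).Point, n • P = 0 → σ • P = P)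
    (P : (W'.toAffine.baseChange K).Point) (hP : n • P = 0) : σ • P = P := by
  apply (vcBase (K := K) W C h).injective
  rw [vcBase_equivariant]
  apply H
  rw [← map_nsmul, hP, map_zero]

end transfer2

end Fermat.Agent.ECRed
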