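import Fermat.Agent.ECRed.Close
import Mathlib.AlgebraicGeometry.EllipticCurve.VariableChange

/-! # Inertia acts trivially on prime-to-residue-characteristic torsion for good reduction -/

set_option autoImplicit false

namespace Fermat.Agent.ECRed

open WeierstrassCurve WeierstrassCurve.Affine Polynomial

variable {K Γ₀ : Type*} [Field K] [LinearOrderedCommGroupWithZero Γ₀] {v : Valuation K Γ₀}
variable {W : WeierstrassCurve K}

/-- If the discriminant is a unit then all integral points have nonsingular reduction. -/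
lemma nonsing_of_Δ (hW : IntCoeff v W) (hΔ : v W.Δ = 1) {x y : K} (h : W.toAffine.Equation x y)
    (hx : v x ≤ 1) (hy : v y ≤ 1) :
    v (2 * y + W.a₁ * x + W.a₃) = 1 ∨ v (3 * x ^ 2 + 2 * W.a₂ * x + W.a₄ - W.a₁ * y) = 1 := by
  by_contra hcon
  push Not at hcon
  obtain ⟨h1, h2⟩ := hcon
  have h1' : v (2 * y + W.a₁ * x + W.a₃) < 1 := by
    refine lt_of_le_of_ne ?_ h1
    exact v.map_add_le (v.map_add_le (v_imul_le v_two_le_one hy) (v_imul_le hW.a₁ hx)) hW.a₃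
  have h2' : v (3 * x ^ 2 + 2 * W.a₂ * x + W.a₄ - W.a₁ * y) < 1 := by
    refine lt_of_le_of_ne ?_ h2
    exact v.map_sub_le (v.map_add_le (v.map_add_le (v_imul_le v_three_le_one
      (by simpa using v_pow_le hx 2)) (v_imul_le (v_imul_le v_two_le_one hW.a₂) hx)) hW.a₄)
      (v_imul_le hW.a₁ hy)
  obtain ⟨W', hW'⟩ : ∃ W', W' = (⟨1, x, 0, y⟩ : VariableChange K) • W := ⟨_, rfl⟩
  have hΔ' : W'.Δ = W.Δ := by
    rw [hW', variableChange_Δ]; simp
  have e1 : W'.a₁ = W.a₁ := by rw [hW']; simp [variableChange_def]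
  have e2 : W'.a₂ = W.a₂ + 3 * x := by rw [hW']; simp [variableChange_def]
  have e3 : W'.a₃ = 2 * y + W.a₁ * x + W.a₃ := by rw [hW']; simp [variableChange_def]; ring
  have e4 : W'.a₄ = 3 * x ^ 2 + 2 * W.a₂ * x + W.a₄ - W.a₁ * y := by
    rw [hW']; simp [variableChange_def]; ring
  have e6 : W'.a₆ = 0 := by
    have := (equation_iff _ _).mp h
    rw [hW']; simp [variableChange_def]; linear_combination -this
  rw [← e3] at h1'
  rw [← e4] at h2'
  have g1 : v W'.a₁ ≤ 1 := by rw [e1]; exact hW.a₁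
  have g2 : v W'.a₂ ≤ 1 := by
    rw [e2]; exact v.map_add_le hW.a₂ (v_imul_le v_three_le_one hx)
  have h44 : v (4 : K) ≤ 1 := by simpa using v_nat_le_one (v := v) 4
  have h88 : v (8 : K) ≤ 1 := by simpa using v_nat_le_one (v := v) 8
  have h99 : v (9 : K) ≤ 1 := by simpa using v_nat_le_one (v := v) 9
  have h27 : v (27 : K) ≤ 1 := by simpa using v_nat_le_one (v := v) 27
  have b2 : v W'.b₂ ≤ 1 := by
    rw [WeierstrassCurve.b₂]
    exact v.map_add_le (by simpa using v_pow_le g1 2) (v_imul_le h44 g2)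
  have b4 : v W'.b₄ < 1 := by
    rw [WeierstrassCurve.b₄]
    exact v.map_add_lt (v_imul_lt v_two_le_one h2') (v_imul_lt g1 h1')
  have b6 : v W'.b₆ < 1 := by
    rw [WeierstrassCurve.b₆, e6, mul_zero, add_zero, sq]
    exact v_imul_lt h1'.le h1'
  have b8 : v W'.b₈ < 1 := by
    rw [WeierstrassCurve.b₈, e6]
    have : W'.a₁ ^ 2 * 0 + 4 * W'.a₂ * 0 - W'.a₁ * W'.a₃ * W'.a₄ + W'.a₂ * W'.a₃ ^ 2 -
      W'.a₄ ^ 2 = W'.a₂ * (W'.a₃ * W'.a₃) - (W'.a₁ * W'.a₃) * W'.a₄ - W'.a₄ * W'.a₄ := by ring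
    rw [this]
    exact v.map_sub_lt (v.map_sub_lt (v_imul_lt g2 (v_imul_lt h1'.le h1'))
      (v_imul_lt (v_imul_le g1 h1'.le) h2')) (v_imul_lt h2'.le h2')
  have : v W'.Δ < 1 := by
    rw [WeierstrassCurve.Δ]
    have e : -W'.b₂ ^ 2 * W'.b₈ - 8 * W'.b₄ ^ 3 - 27 * W'.b₆ ^ 2 + 9 * W'.b₂ * W'.b₄ * W'.b₆ =
      9 * W'.b₂ * W'.b₄ * W'.b₆ - W'.b₂ ^ 2 * W'.b₈ - (8 * W'.b₄ ^ 2) * W'.b₄ -
        (27 * W'.b₆) * W'.b₆ := by ring
    rw [e]
    refine v.map_sub_lt (v.map_sub_lt (v.map_sub_lt ?_ ?_) ?_) ?_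
    · exact v_imul_lt (v_imul_le (v_imul_le h99 b2) b4.le) b6
    · exact v_imul_lt (by simpa using v_pow_le b2 2) b8
    · exact v_imul_lt (v_imul_le h88 (by simpa using v_pow_le b4.le 2)) b4
    · exact v_imul_lt (v_imul_le h27 b6.le) b6
  rw [hΔ', hΔ] at this
  exact lt_irrefl _ this

variable [DecidableEq K]

/-- Good reduction: an automorphism inducing the identity on the residue field fixes all the
`n`-torsion, when `n` is a unit. -/
theorem good_fixed (hW : IntCoeff v W) (hΔ : v W.Δ = 1) {n : ℕ} (hn : v (n : K) = 1)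
    (σ : K → K) (hσ : ∀ x, v x ≤ 1 → v (σ x - x) < 1)
    (s : W.toAffine.Point →+ W.toAffine.Point)
    (hs : ∀ x y h, ∃ h', s (.some x y h) = .some (σ x) (σ y) h')
    {P : W.toAffine.Point} (hP : n • P = 0) : s P = P := by
  rcases P with _ | ⟨x, y, h⟩
  · exact map_zero s
  obtain ⟨h', e⟩ := hs x y h
  obtain ⟨hx, hy⟩ := v_le_one_of_torsion hW h hn hP
  have hns := nonsing_of_Δ hW hΔ h.1 hx hy
  rw [e]
  symm
  refine eq_of_close hW h h' hx hy ?_ ?_ hns hn hP ?_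
  · rw [Valuation.map_sub_swap]; exact hσ x hx
  · rw [Valuation.map_sub_swap]; exact hσ y hy
  · rw [← e, ← map_nsmul, hP, map_zero]

end Fermat.Agent.ECRed
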