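import Mathlib.RingTheory.Valuation.Basic
import Mathlib.Tactic.FieldSimp
import Mathlib.Tactic.LinearCombination

/-! # A lemma on valuations of abscissas of the multiples of a point near a node -/

set_option autoImplicit false

namespace Fermat.Agent.ECRed

variable {K Γ₀ : Type*} [Field K] [LinearOrderedCommGroupWithZero Γ₀] {v : Valuation K Γ₀}

lemma mul_left_cancel_pos {a b c : Γ₀} (ha : 0 < a) (h : a * b = a * c) : b = c :=
  mul_left_cancel₀ ha.ne' h

/-- Let `x k` be the abscissas of the multiples of a `p`-torsion point near a node; if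
`v (x 1)` is maximal, then `v (x 1) ^ p = v a ^ 2`. -/
theorem seq_lemma {x : ℕ → K} {a : K} {p : ℕ} (hp : 3 ≤ p)
    (h0 : ∀ k, 1 ≤ k → k < p → v a < v (x k) ∧ v (x k) < 1 ∧ v (x k) ≤ v (x 1))
    (ha : 0 < v a)
    (h2 : v (x 2) * v (x 1) ^ 2 = v (x 1 ^ 2 - a) ^ 2)
    (h3 : ∀ k, 2 ≤ k → k + 1 < p → v (x (k + 1)) * v (x (k - 1)) * v (x k - x 1) ^ 2 =
      v (x k * x 1 - a) ^ 2)
    (h4 : v (x (p - 1)) = v (x 1)) : v (x 1) ^ p = v a ^ 2 := by
  obtain ⟨δ, hδ⟩ : ∃ δ, δ = v (x 1) := ⟨_, rfl⟩
  obtain ⟨μ, hμ⟩ : ∃ μ, μ = v a := ⟨_, rfl⟩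
  rw [← hδ] at h2 h4 ⊢
  rw [← hμ] at ha ⊢
  have hδμ : μ < δ := by rw [hδ, hμ]; exact (h0 1 le_rfl (by omega)).1
  have hδ1 : δ < 1 := by rw [hδ]; exact (h0 1 le_rfl (by omega)).2.1
  have hδ0 : 0 < δ := ha.trans hδμ
  have hle : ∀ k, 1 ≤ k → k < p → v (x k) ≤ δ := by
    intro k h1 h2; rw [hδ]; exact (h0 k h1 h2).2.2
  have hgt : ∀ k, 1 ≤ k → k < p → μ < v (x k) := by
    intro k h1 h2; rw [hμ]; exact (h0 k h1 h2).1
  have hlt1 : ∀ k, 1 ≤ k → k < p → v (x k) < 1 := by
    intro k h1 h2; exact (h0 k h1 h2).2.1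
  have hpos : ∀ k, 1 ≤ k → k < p → 0 < v (x k) := fun k h1 h2 => ha.trans (hgt k h1 h2)
  have hδpow : ∀ {m n : ℕ}, m < n → δ ^ n < δ ^ m := by
    intro m n hmn
    exact pow_lt_pow_right_of_lt_one₀ hδ0 hδ1 hmn
  have hδpow1 : ∀ {n : ℕ}, 2 ≤ n → δ ^ n < δ := by
    intro n hn
    simpa using hδpow (show 1 < n by omega)
  -- Claim A
  have hA : ∀ k, 1 ≤ k → k < p → μ < δ ^ k → v (x k) = δ ^ k := by
    intro k
    induction k using Nat.strong_induction_on with
    | _ k ih =>
      intro hk1 hkp hμk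
      rcases Nat.lt_or_ge k 2 with hk | hk
      · obtain rfl : k = 1 := by omega
        rw [pow_one, hδ]
      rcases Nat.lt_or_ge k 3 with hk | hk
      · obtain rfl : k = 2 := by omega
        have e : v (x 1 ^ 2 - a) = δ ^ 2 := by
          rw [v.map_sub_eq_of_lt_left, map_pow, hδ]
          rw [map_pow, ← hδ, ← hμ]; exact hμk
        rw [e] at h2
        have := mul_left_cancel_pos (pow_pos hδ0 2)
          (show δ ^ 2 * v (x 2) = δ ^ 2 * δ ^ 2 by rw [mul_comm, h2, sq (δ ^ 2)])
        exact this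
      · obtain ⟨m, rfl⟩ : ∃ m, k = m + 1 := ⟨k - 1, by omega⟩
        have hm2 : 2 ≤ m := by omega
        have hμm : μ < δ ^ m := hμk.trans (hδpow (by omega))
        have hμm1 : μ < δ ^ (m - 1) := hμm.trans (hδpow (by omega))
        have e1 := ih m (by omega) (by omega) (by omega) hμm
        have e2 := ih (m - 1) (by omega) (by omega) (by omega) hμm1
        have e3 : v (x m - x 1) = δ := by
          rw [v.map_sub_eq_of_lt_right, hδ]
          rw [e1, ← hδ]; exact hδpow1 hm2
        have e4 : v (x m * x 1 - a) = δ ^ (m + 1) := by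
          have : v (x m * x 1) = δ ^ (m + 1) := by rw [map_mul, e1, ← hδ, pow_succ]
          rw [v.map_sub_eq_of_lt_left, this]
          rw [this, ← hμ]; exact hμk
        have h := h3 m hm2 hkp
        rw [e2, e3, e4] at h
        obtain ⟨j, rfl⟩ : ∃ j, m = j + 1 := ⟨m - 1, by omega⟩
        rw [Nat.add_sub_cancel] at h
        have hne : δ ≠ 0 := hδ0.ne'
        have hjj : δ ^ j ≠ 0 := pow_ne_zero _ hne
        have : v (x (j + 1 + 1)) * (δ ^ j * δ ^ 2) = δ ^ (j + 1 + 1) * (δ ^ j * δ ^ 2) := by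
          rw [← mul_assoc, h]
          rw [← pow_mul, ← pow_add, ← pow_add]
          congr 1; ring
        exact mul_right_cancel₀ (mul_ne_zero hjj (pow_ne_zero 2 hne)) this
  -- the threshold
  have hnot : ¬ μ < δ ^ (p - 1) := by
    intro h
    have := hA (p - 1) (by omega) (by omega) h
    rw [h4] at this
    exact absurd (hδpow1 (show 2 ≤ p - 1 by omega)) (by rw [← this]; exact lt_irrefl _)
  have hex : ∃ n, ¬ μ < δ ^ (n + 1) := ⟨p - 2, by
    have : p - 2 + 1 = p - 1 := by omega
    rwa [this]⟩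
  classical
  obtain ⟨N, hN⟩ : ∃ N, N = Nat.find hex := ⟨_, rfl⟩
  have hN1 : ¬ μ < δ ^ (N + 1) := by rw [hN]; exact Nat.find_spec hex
  have hNmin : ∀ m, m < N → μ < δ ^ (m + 1) := by
    intro m hm
    rw [hN] at hm
    have := Nat.find_min hex hm
    push Not at this
    exact this
  have hN0 : 1 ≤ N := by
    by_contra h
    have : N = 0 := by omega
    rw [this] at hN1
    simp only [zero_add, pow_one] at hN1
    exact hN1 hδμ
  have hNp : N + 1 < p := by
    by_contra h
    have := hNmin (p - 2) (by omega)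
    have e : p - 2 + 1 = p - 1 := by omega
    rw [e] at this
    exact hnot this
  have hμN : μ < δ ^ N := by
    have := hNmin (N - 1) (by omega)
    have e : N - 1 + 1 = N := by omega
    rwa [e] at this
  have hAN : ∀ k, 1 ≤ k → k ≤ N → v (x k) = δ ^ k := by
    intro k hk1 hk2
    apply hA k hk1 (by omega)
    rcases Nat.lt_or_ge k N with h | h
    · exact hμN.trans (hδpow h)
    · obtain rfl : k = N := by omega
      exact hμN
  push Not at hN1
  -- Claim B
  have hB : δ ^ (N + 1) < μ ∧ v (x (N + 1)) * δ ^ (N + 1) = μ ^ 2 := by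
    -- the fundamental relation
    have hrel : v (x (N + 1)) * δ ^ (N + 1) = v (x N * x 1 - a) ^ 2 := by
      rcases Nat.lt_or_ge N 2 with h | h
      · obtain rfl : N = 1 := by omega
        rw [← sq (x 1), ← h2]
      · have h := h3 N h hNp
        have e3 : v (x N - x 1) = δ := by
          rw [v.map_sub_eq_of_lt_right, hδ]
          rw [hAN N (by omega) le_rfl, ← hδ]; exact hδpow1 (by omega)
        rw [e3, hAN (N - 1) (by omega) (by omega)] at h
        rw [← h, mul_assoc, ← pow_add]
        congr 2; omega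
    have hvN : v (x N * x 1) = δ ^ (N + 1) := by
      rw [map_mul, hAN N hN0 le_rfl, ← hδ, pow_succ]
    have hlt : δ ^ (N + 1) < μ := by
      refine lt_of_le_of_ne hN1 ?_
      intro heq
      have h5 : v (x N * x 1 - a) ≤ μ := by
        apply v.map_sub_le
        · rw [hvN]; exact hN1
        · rw [← hμ]
      have h6 : v (x (N + 1)) * μ ≤ μ * μ := by
        rw [heq] at hrel
        rw [hrel, ← sq]; exact pow_le_pow_left' h5 2
      have h7 : v (x (N + 1)) ≤ μ := le_of_mul_le_mul_right h6 ha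
      exact absurd (hgt (N + 1) (by omega) hNp) (not_lt.mpr h7)
    refine ⟨hlt, ?_⟩
    rw [hrel, v.map_sub_eq_of_lt_right, ← hμ]
    rw [hvN, ← hμ]; exact hlt
  -- Claim C
  have hC : ∀ k, N + 1 ≤ k → k < p → v (x k) * δ ^ k = μ ^ 2 := by
    intro k
    induction k using Nat.strong_induction_on with
    | _ k ih =>
      intro hk hkp
      rcases Nat.lt_or_ge (N + 1) k with hk' | hk'
      swap
      · obtain rfl : k = N + 1 := by omega
        exact hB.2
      obtain ⟨k, rfl⟩ : ∃ m, k = m + 1 := ⟨k - 1, by omega⟩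
      have ihk := ih k (by omega) (by omega) (by omega)
      have hk2 : 2 ≤ k := by omega
      have hrel := h3 k hk2 hkp
      have hne : δ ≠ 0 := hδ0.ne'
      have hμne : μ ≠ 0 := ha.ne'
      have hsub : v (x k - x 1) ≤ δ := v.map_sub_le (hle k (by omega) (by omega)) hδ.ge
      have hsub2 : v (x k - x 1) ^ 2 ≤ δ ^ 2 := pow_le_pow_left' hsub 2
      rcases Nat.lt_or_ge (N + 1) k with h | h
      · -- `k - 1` is also beyond the threshold
        obtain ⟨j, rfl⟩ : ∃ j, k = j + 1 := ⟨k - 1, by omega⟩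
        have ihj := ih j (by omega) (by omega) (by omega)
        rw [Nat.add_sub_cancel] at hrel
        have hδj : δ ^ j < μ := by
          rcases Nat.lt_or_ge (N + 1) j with h' | h'
          · exact (hδpow h').trans hB.1
          · obtain rfl : j = N + 1 := by omega
            exact hB.1
        have hδj0 : 0 < δ ^ j := pow_pos hδ0 j
        -- `μ < v (x (j+1) * x 1)`
        have hbig : μ < v (x (j + 1) * x 1) := by
          rw [map_mul, ← hδ]
          by_contra hcon
          push Not at hcon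
          have h5 : v (x (j + 1)) * δ * δ ^ j < μ * μ := by
            calc v (x (j + 1)) * δ * δ ^ j ≤ μ * δ ^ j := mul_le_mul_left hcon _
              _ < μ * μ := mul_lt_mul_of_pos_left hδj ha
          rw [mul_assoc, ← pow_succ', ihk, sq] at h5
          exact lt_irrefl _ h5
        have e5 : v (x (j + 1) * x 1 - a) = v (x (j + 1) * x 1) :=
          v.map_sub_eq_of_lt_left (by rw [← hμ]; exact hbig)
        rw [e5, map_mul, ← hδ] at hrel
        have hkδ : v (x (j + 1)) < δ := by
          refine lt_of_le_of_ne (hle _ (by omega) (by omega)) ?_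
          intro heq
          rw [heq, ← pow_succ'] at ihk
          rw [heq] at hrel
          have h6 : v (x j) = δ ^ 2 := by
            have : v (x j) * δ ^ j = δ ^ 2 * δ ^ j := by
              rw [ihj, ← ihk, ← pow_add]; congr 1; ring
            exact mul_right_cancel₀ hδj0.ne' this
          have h7 : δ ^ 2 * δ ^ 2 ≤ v (x (j + 1 + 1)) * (δ ^ 2 * δ ^ 2) := by
            calc δ ^ 2 * δ ^ 2 = (δ * δ) ^ 2 := by rw [← mul_pow]
              _ = v (x (j + 1 + 1)) * v (x j) * v (x (j + 1) - x 1) ^ 2 := hrel.symm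
              _ ≤ v (x (j + 1 + 1)) * δ ^ 2 * δ ^ 2 := by rw [h6]; exact mul_le_mul_right hsub2 _
              _ = _ := by rw [mul_assoc]
          have h8 : 0 < δ ^ 2 * δ ^ 2 := mul_pos (pow_pos hδ0 2) (pow_pos hδ0 2)
          have h9 := mul_lt_mul_of_pos_right (hlt1 _ (by omega) hkp) h8
          rw [one_mul] at h9
          exact absurd h7 (not_le.mpr h9)
        have hsubeq : v (x (j + 1) - x 1) = δ := by
          rw [v.map_sub_eq_of_lt_right (by rw [← hδ]; exact hkδ), ← hδ]
        rw [hsubeq, mul_pow] at hrel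
        have hrel' : v (x (j + 1 + 1)) * v (x j) = v (x (j + 1)) ^ 2 :=
          mul_right_cancel₀ (pow_ne_zero 2 hne) hrel
        have : v (x (j + 1 + 1)) * δ ^ (j + 1 + 1) * μ ^ 2 = μ ^ 2 * μ ^ 2 := by
          calc v (x (j + 1 + 1)) * δ ^ (j + 1 + 1) * μ ^ 2
              = v (x (j + 1 + 1)) * δ ^ (j + 1 + 1) * (v (x j) * δ ^ j) := by rw [ihj]
            _ = (v (x (j + 1 + 1)) * v (x j)) * (δ ^ (j + 1 + 1) * δ ^ j) := by
                rw [mul_mul_mul_comm]
            _ = v (x (j + 1)) ^ 2 * (δ ^ (j + 1)) ^ 2 := by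
                rw [hrel', ← pow_add, ← pow_mul]; congr 2; ring
            _ = (v (x (j + 1)) * δ ^ (j + 1)) ^ 2 := by rw [mul_pow]
            _ = μ ^ 2 * μ ^ 2 := by rw [ihk, sq (μ ^ 2)]
        exact mul_right_cancel₀ (pow_ne_zero 2 hμne) this
      · obtain rfl : k = N + 1 := by omega
        rw [Nat.add_sub_cancel, hAN N hN0 le_rfl] at hrel
        have hδN0 : 0 < δ ^ N := pow_pos hδ0 N
        have hsmall : v (x (N + 1) * x 1) < μ := by
          rw [map_mul, ← hδ]
          by_contra hcon
          push Not at hcon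
          have h5 : μ * μ < v (x (N + 1)) * δ * δ ^ N := by
            calc μ * μ < μ * δ ^ N := mul_lt_mul_of_pos_left hμN ha
              _ ≤ v (x (N + 1)) * δ * δ ^ N := mul_le_mul_left hcon _
          rw [mul_assoc, ← pow_succ', ihk, sq] at h5
          exact lt_irrefl _ h5
        have e5 : v (x (N + 1) * x 1 - a) = v a :=
          v.map_sub_eq_of_lt_right (by rw [← hμ]; exact hsmall)
        rw [e5, ← hμ] at hrel
        have hkδ : v (x (N + 1)) < δ := by
          refine lt_of_le_of_ne (hle _ (by omega) (by omega)) ?_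
          intro heq
          rw [heq, ← pow_succ'] at ihk
          have hN1' : N = 1 := by
            by_contra hne1
            have h5 : δ ^ N * δ ^ N ≤ δ ^ (N + 1 + 1) := by
              rw [← pow_add]
              rcases Nat.lt_or_ge (N + 1 + 1) (N + N) with h6 | h6
              · exact (hδpow h6).le
              · have : N + N = N + 1 + 1 := by omega
                rw [this]
            rw [ihk, sq] at h5
            exact absurd h5 (not_le.mpr (mul_lt_mul'' hμN hμN ha.le ha.le))
          rw [← ihk] at hrel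
          have h6 : δ ^ (N + 1 + 1) ≤ v (x (N + 1 + 1)) * δ ^ (N + 1 + 1) := by
            calc δ ^ (N + 1 + 1) = v (x (N + 1 + 1)) * δ ^ N * v (x (N + 1) - x 1) ^ 2 :=
                  hrel.symm
              _ ≤ v (x (N + 1 + 1)) * δ ^ N * δ ^ 2 := mul_le_mul_right hsub2 _
              _ = _ := by rw [mul_assoc, ← pow_add]
          have h8 := mul_lt_mul_of_pos_right (hlt1 _ (by omega) hkp) (pow_pos hδ0 (N + 1 + 1))
          rw [one_mul] at h8
          exact absurd h6 (not_le.mpr h8)
        have hsubeq : v (x (N + 1) - x 1) = δ := by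
          rw [v.map_sub_eq_of_lt_right (by rw [← hδ]; exact hkδ), ← hδ]
        rw [hsubeq, mul_assoc, ← pow_add] at hrel
        exact hrel
  have := hC (p - 1) (by omega) (by omega)
  rw [h4, ← pow_succ'] at this
  rw [← this]
  congr 1; omega

end Fermat.Agent.ECRed
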