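import Fermat.Agent.ECRed.Close
import Fermat.Agent.ECRed.Seq
import Mathlib.Data.Nat.Prime.Basic

/-! # Inertia acts trivially on prime-to-residue-characteristic torsion near a split node -/

set_option autoImplicit false

namespace Fermat.Agent.ECRed

open WeierstrassCurve WeierstrassCurve.Affine Polynomial

section formulas

variable {K : Type*} [Field K] {W : WeierstrassCurve K}

/-- The abscissa of a point (junk value `0` at the point at infinity). -/
def xc : W.toAffine.Point → K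
  | 0 => 0
  | .some x _ _ => x

@[simp] lemma xc_zero : xc (0 : W.toAffine.Point) = 0 := rfl

@[simp] lemma xc_some {x y : K} (h : W.toAffine.Nonsingular x y) :
    xc (.some x y h : W.toAffine.Point) = x := rfl

lemma xc_neg (P : W.toAffine.Point) : xc (-P) = xc P := by
  rcases P with _ | ⟨x, y, h⟩
  · rfl
  · rw [Point.neg_some, xc_some, xc_some]

/-- A Weierstrass curve of the form `y² = x³ + a₂x² + a₄x`. -/
structure IsSpecial (W : WeierstrassCurve K) : Prop where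
  a₁ : W.a₁ = 0
  a₃ : W.a₃ = 0
  a₆ : W.a₆ = 0

lemma special_eq (hW : IsSpecial W) {x y : K} (h : W.toAffine.Equation x y) :
    y ^ 2 = x ^ 3 + W.a₂ * x ^ 2 + W.a₄ * x := by
  have := (equation_iff _ _).mp h
  rw [hW.a₁, hW.a₃, hW.a₆] at this
  linear_combination this

lemma special_negY (hW : IsSpecial W) (x y : K) : W.toAffine.negY x y = -y := by
  rw [negY, hW.a₁, hW.a₃]; ring

variable [DecidableEq K]

/-- Product formula for the abscissas of the sum and the difference. -/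
lemma xc_add_mul_xc_sub (hW : IsSpecial W) {P Q : W.toAffine.Point} (hP : P ≠ 0) (hQ : Q ≠ 0)
    (h1 : P ≠ Q) (h2 : P ≠ -Q) :
    xc (P + Q) * xc (P - Q) * (xc P - xc Q) ^ 2 = (xc P * xc Q - W.a₄) ^ 2 := by
  rcases P with _ | ⟨x₁, y₁, h₁⟩
  · exact absurd rfl hP
  rcases Q with _ | ⟨x₂, y₂, h₂⟩
  · exact absurd rfl hQ
  have hx : x₁ ≠ x₂ := by
    intro hx
    rcases Point.X_eq_iff.mp hx with h | h
    · exact h1 h
    · exact h2 h
  have hd : x₁ - x₂ ≠ 0 := sub_ne_zero.mpr hx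
  rw [sub_eq_add_neg (Point.some x₁ y₁ h₁), Point.neg_some, Point.add_of_X_ne hx,
    Point.add_of_X_ne hx, xc_some, xc_some, xc_some, xc_some, slope_of_X_ne hx,
    slope_of_X_ne hx, special_negY hW, addX, addX]
  have e₁ := special_eq hW h₁.1
  have e₂ := special_eq hW h₂.1
  have a1 : W.toAffine.a₁ = 0 := hW.a₁
  rw [a1]
  have hD : ∀ D : K, (((y₁ - y₂) ^ 2 - D) * ((y₁ - -y₂) ^ 2 - D)) =
      (y₁ ^ 2 - y₂ ^ 2) ^ 2 - 2 * (y₁ ^ 2 + y₂ ^ 2) * D + D ^ 2 := by intro D; ring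
  have e3 : (((y₁ - y₂) / (x₁ - x₂)) ^ 2 + 0 * ((y₁ - y₂) / (x₁ - x₂)) - W.toAffine.a₂ - x₁ - x₂) =
      ((y₁ - y₂) ^ 2 - (x₁ - x₂) ^ 2 * (W.a₂ + x₁ + x₂)) / (x₁ - x₂) ^ 2 := by
    field_simp
    ring
  have e4 : (((y₁ - -y₂) / (x₁ - x₂)) ^ 2 + 0 * ((y₁ - -y₂) / (x₁ - x₂)) -
      W.toAffine.a₂ - x₁ - x₂) =
      ((y₁ - -y₂) ^ 2 - (x₁ - x₂) ^ 2 * (W.a₂ + x₁ + x₂)) / (x₁ - x₂) ^ 2 := by
    field_simp
    ring
  rw [e3, e4, div_mul_div_comm, hD, e₁, e₂, div_mul_eq_mul_div, div_eq_iff (by positivity)]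
  ring

/-- Duplication formula. -/
lemma xc_two (hW : IsSpecial W) {P : W.toAffine.Point} (hP : P ≠ 0) (h2 : P + P ≠ 0) :
    xc (P + P) * (4 * (xc P ^ 3 + W.a₂ * xc P ^ 2 + W.a₄ * xc P)) =
      (xc P ^ 2 - W.a₄) ^ 2 := by
  rcases P with _ | ⟨x, y, h⟩
  · exact absurd rfl hP
  have e := special_eq hW h.1
  have hy : y ≠ W.toAffine.negY x y := by
    intro hy
    exact h2 (Point.add_self_of_Y_eq hy)
  rw [Point.add_self_of_Y_ne hy, xc_some, xc_some, slope_of_Y_ne rfl hy, special_negY hW, addX]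
  rw [special_negY hW] at hy
  have hy2 : y - -y ≠ 0 := sub_ne_zero.mpr hy
  have a1 : W.toAffine.a₁ = 0 := hW.a₁
  have e4 : 4 * (x ^ 3 + W.a₂ * x ^ 2 + W.a₄ * x) = (y - -y) ^ 2 := by
    rw [← e]; ring
  rw [a1, e4]
  have e5 : ∀ N d A : K, d ≠ 0 → ((N / d) ^ 2 + 0 * (N / d) - A) * d ^ 2 = N ^ 2 - A * d ^ 2 := by
    intro N d A hd
    field_simp
    ring
  rw [sub_sub, sub_sub, e5 _ _ _ hy2]
  have e6 : (y - -y) ^ 2 = 4 * (x ^ 3 + W.a₂ * x ^ 2 + W.a₄ * x) := e4.symm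
  rw [e6]
  ring

end formulas

section val

variable {K Γ₀ : Type*} [Field K] [LinearOrderedCommGroupWithZero Γ₀] {v : Valuation K Γ₀}
variable {W : WeierstrassCurve K}

lemma intCoeff_special (hW : IsSpecial W) (h2 : v W.a₂ ≤ 1) (h4 : v W.a₄ ≤ 1) : IntCoeff v W where
  a₁ := by rw [hW.a₁, map_zero]; exact zero_le
  a₂ := h2
  a₃ := by rw [hW.a₃, map_zero]; exact zero_le
  a₄ := h4
  a₆ := by rw [hW.a₆, map_zero]; exact zero_le

/-- An integral point of `y² = x³ + a₂x² + a₄x` has nonsingular reduction or reduces to the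
node `(0, 0)` if `a₂` is a unit and `a₄` is a nonunit. -/
lemma nonsing_or_node (hW : IsSpecial W) (h2 : v W.a₂ = 1) (h4 : v W.a₄ < 1) (hv2 : v (2 : K) = 1)
    {x y : K} (h : W.toAffine.Equation x y) (hx : v x ≤ 1) (hy : v y ≤ 1) :
    (v (2 * y + W.a₁ * x + W.a₃) = 1 ∨ v (3 * x ^ 2 + 2 * W.a₂ * x + W.a₄ - W.a₁ * y) = 1) ∨
      v x < 1 := by
  by_contra hcon
  push Not at hcon
  obtain ⟨⟨h1, h3⟩, hx1⟩ := hcon
  rw [hW.a₁, hW.a₃] at h1
  rw [hW.a₁] at h3
  have hxe : v x = 1 := le_antisymm hx hx1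
  have e := special_eq hW h
  have hy1 : v y < 1 := by
    refine lt_of_le_of_ne hy ?_
    intro hy1
    apply h1
    rw [zero_mul, add_zero, add_zero, map_mul, hv2, hy1, one_mul]
  have hq : v (x ^ 2 + W.a₂ * x + W.a₄) < 1 := by
    have : x * (x ^ 2 + W.a₂ * x + W.a₄) = y ^ 2 := by rw [e]; ring
    have h5 : v (x * (x ^ 2 + W.a₂ * x + W.a₄)) = v (x ^ 2 + W.a₂ * x + W.a₄) := by
      rw [map_mul, hxe, one_mul]
    rw [← h5, this, sq]
    exact v_imul_lt hy hy1
  have hq2 : v (3 * x ^ 2 + 2 * W.a₂ * x + W.a₄) < 1 := by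
    rw [zero_mul, sub_zero] at h3
    refine lt_of_le_of_ne ?_ h3
    exact v.map_add_le (v.map_add_le (v_imul_le v_three_le_one (by simpa using v_pow_le hx 2))
      (v_imul_le (v_imul_le v_two_le_one h2.le) hx)) h4.le
  have hq3 : v (W.a₂ * x) < 1 := by
    have : W.a₂ * x = 3 * (x ^ 2 + W.a₂ * x + W.a₄) - (3 * x ^ 2 + 2 * W.a₂ * x + W.a₄) -
      2 * W.a₄ := by ring
    rw [this]
    exact v.map_sub_lt (v.map_sub_lt (v_imul_lt v_three_le_one hq) hq2) (v_imul_lt v_two_le_one h4)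
  rw [map_mul, h2, hxe, one_mul] at hq3
  exact lt_irrefl _ hq3

variable [DecidableEq K]

/-- If a point near the node is too close to it, then its double is not near the node. -/
lemma one_le_xc_two (hW : IsSpecial W) (h2 : v W.a₂ ≤ 1) (h4 : v W.a₄ < 1) (h40 : W.a₄ ≠ 0)
    {P : W.toAffine.Point} (hP : P ≠ 0) (h2P : P + P ≠ 0) (hx : v (xc P) ≤ v W.a₄) :
    1 ≤ v (xc (P + P)) := by
  have h := xc_two hW hP h2P
  have hμ : 0 < v W.a₄ := by rwa [Valuation.pos_iff]
  have h5 : v (xc P ^ 2 - W.a₄) = v W.a₄ := by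
    apply v.map_sub_eq_of_lt_right
    rw [map_pow, sq]
    calc v (xc P) * v (xc P) ≤ v W.a₄ * v W.a₄ := mul_le_mul' hx hx
      _ < v W.a₄ * 1 := mul_lt_mul_of_pos_left h4 hμ
      _ = v W.a₄ := mul_one _
  have h6 : v (4 * (xc P ^ 3 + W.a₂ * xc P ^ 2 + W.a₄ * xc P)) ≤ v W.a₄ ^ 2 := by
    have e : 4 * (xc P ^ 3 + W.a₂ * xc P ^ 2 + W.a₄ * xc P) =
      4 * ((xc P) * (xc P ^ 2 + W.a₂ * xc P + W.a₄)) := by ring
    rw [e, sq (v W.a₄)]
    have h44 : v (4 : K) ≤ 1 := by simpa using v_nat_le_one (v := v) 4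
    refine v_imul_le h44 (v_mul_le hx ?_)
    refine v.map_add_le (v.map_add_le ?_ ?_) le_rfl
    · rw [sq]; exact v_imul_le (hx.trans h4.le) hx
    · exact v_imul_le h2 hx
  have h7 : v W.a₄ ^ 2 ≤ v (xc (P + P)) * v W.a₄ ^ 2 := by
    calc v W.a₄ ^ 2 = v ((xc P ^ 2 - W.a₄) ^ 2) := by rw [map_pow, h5]
      _ = v (xc (P + P)) * v (4 * (xc P ^ 3 + W.a₂ * xc P ^ 2 + W.a₄ * xc P)) := by
          rw [← h, map_mul]
      _ ≤ _ := mul_le_mul_right h6 _
  by_contra hcon
  push Not at hcon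
  have := mul_lt_mul_of_pos_right hcon (pow_pos hμ 2)
  rw [one_mul] at this
  exact absurd h7 (not_le.mpr this)

/-- Main theorem near a node. -/
theorem nodal_fixed (hW : IsSpecial W) (h2 : v W.a₂ = 1) (h4 : v W.a₄ < 1) (h40 : W.a₄ ≠ 0)
    (hv2 : v (2 : K) = 1) {p : ℕ} (hp : p.Prime) (hp3 : 3 ≤ p) (hvp : v (p : K) = 1)
    {d : K} (hd : v W.a₄ = v d ^ p)
    (σ : K →+* K) (hσ : ∀ x, v x ≤ 1 → v (σ x - x) < 1) (hσd : σ d = d)
    (s : W.toAffine.Point →+ W.toAffine.Point)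
    (hs : ∀ x y h, ∃ h', s (.some x y h) = .some (σ x) (σ y) h')
    {P : W.toAffine.Point} (hP : p • P = 0) : s P = P := by
  have hI : IntCoeff v W := intCoeff_special hW h2.le h4.le
  have hμ : 0 < v W.a₄ := by rwa [Valuation.pos_iff]
  by_cases hP0 : P = 0
  · rw [hP0, map_zero]
  -- multiples
  have hord : ∀ k, 1 ≤ k → k < p → k • P ≠ 0 := by
    intro k hk1 hkp h0
    have hord := addOrderOf_eq_prime hP hP0 (hp := ⟨hp⟩)
    have := addOrderOf_dvd_of_nsmul_eq_zero h0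
    rw [hord] at this
    exact absurd (Nat.le_of_dvd (by omega) this) (by omega)
  -- it suffices to show that some nonzero multiple is fixed
  have hred : ∀ k, 1 ≤ k → k < p → s (k • P) = k • P → s P = P := by
    intro k hk1 hkp hk
    have hcop : Nat.Coprime k p := by
      rw [Nat.coprime_comm]
      exact (Nat.Prime.coprime_iff_not_dvd hp).mpr fun h => by
        exact absurd (Nat.le_of_dvd (by omega) h) (by omega)
    obtain ⟨m, -, hm⟩ := Nat.exists_mul_mod_eq_one_of_coprime hcop (by omega)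
    have hPm : P = m • (k • P) := by
      rw [← mul_smul, mul_comm, ← Nat.div_add_mod (k * m) p, hm, add_smul, mul_smul,
        one_smul, smul_comm, hP, smul_zero, zero_add]
    rw [hPm, map_nsmul, hk]
  have htor : ∀ k : ℕ, p • (k • P) = 0 := by
    intro k; rw [smul_comm, hP, smul_zero]
  by_cases hns : ∃ k, 1 ≤ k ∧ k < p ∧ ¬ v (xc (k • P)) < 1
  · obtain ⟨k, hk1, hkp, hk⟩ := hns
    apply hred k hk1 hkp
    have hk0 := hord k hk1 hkp
    have hkt := htor k
    generalize k • P = R at hk hk0 hkt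
    rcases R with _ | ⟨x, y, h⟩
    · exact absurd rfl hk0
    obtain ⟨h', e⟩ := hs x y h
    rw [xc_some] at hk
    obtain ⟨hx, hy⟩ := v_le_one_of_torsion hI h hvp hkt
    have hns := (nonsing_or_node hW h2 h4 hv2 h.1 hx hy).resolve_right hk
    rw [e]
    symm
    refine eq_of_close hI h h' hx hy ?_ ?_ hns hvp hkt ?_
    · rw [Valuation.map_sub_swap]; exact hσ x hx
    · rw [Valuation.map_sub_swap]; exact hσ y hy
    · rw [← e, ← map_nsmul, hkt, map_zero]
  push Not at hns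
  have hgt : ∀ k, 1 ≤ k → k < p → v W.a₄ < v (xc (k • P)) := by
    intro k hk1 hkp
    by_contra hle
    push Not at hle
    have hcop : ¬ p ∣ 2 * k := by
      intro h
      rcases hp.dvd_mul.mp h with h | h
      · exact absurd (Nat.le_of_dvd (by omega) h) (by omega)
      · exact absurd (Nat.le_of_dvd (by omega) h) (by omega)
    have hmod : 1 ≤ (2 * k) % p := by
      rw [Nat.one_le_iff_ne_zero]
      intro h; exact hcop (Nat.dvd_of_mod_eq_zero h)
    have h2k : k • P + k • P = ((2 * k) % p) • P := by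
      rw [← two_nsmul, ← mul_smul]
      conv_lhs => rw [← Nat.div_add_mod (2 * k) p, add_smul, mul_comm, mul_smul, hP, smul_zero,
        zero_add]
    have hlt := Nat.mod_lt (2 * k) (show 0 < p by omega)
    have h1 := one_le_xc_two hW h2.le h4 h40 (hord k hk1 hkp)
      (by rw [h2k]; exact hord _ hmod hlt) hle
    rw [h2k] at h1
    exact absurd (hns _ hmod hlt) (not_lt.mpr h1)
  -- choose a multiple with maximal valuation
  obtain ⟨k₀, hk₀, hmax⟩ := Finset.exists_max_image (Finset.Ico 1 p) (fun k => v (xc (k • P)))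
    ⟨1, by simp; omega⟩
  rw [Finset.mem_Ico] at hk₀
  apply hred k₀ hk₀.1 hk₀.2
  obtain ⟨Q, hQ⟩ : ∃ Q, Q = k₀ • P := ⟨_, rfl⟩
  rw [← hQ] at hmax ⊢
  -- multiples of Q
  have hmul : ∀ k, 1 ≤ k → k < p → ∃ j, 1 ≤ j ∧ j < p ∧ k • Q = j • P := by
    intro k hk1 hkp
    refine ⟨(k * k₀) % p, ?_, Nat.mod_lt _ (by omega), ?_⟩
    · rw [Nat.one_le_iff_ne_zero]
      intro h
      rcases hp.dvd_mul.mp (Nat.dvd_of_mod_eq_zero h) with h | h
      · exact absurd (Nat.le_of_dvd (by omega) h) (by omega)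
      · exact absurd (Nat.le_of_dvd (by omega) h) (by omega)
    · rw [hQ, ← mul_smul]
      conv_lhs => rw [← Nat.div_add_mod (k * k₀) p, add_smul, mul_comm, mul_smul, hP, smul_zero,
        zero_add]
  have hQt : p • Q = 0 := by rw [hQ]; exact htor k₀
  have hQk : ∀ k, 1 ≤ k → k < p → k • Q ≠ 0 := by
    intro k hk1 hkp
    obtain ⟨j, hj1, hjp, hj⟩ := hmul k hk1 hkp
    rw [hj]; exact hord j hj1 hjp
  have h1Q : (1 : ℕ) • Q = Q := one_smul _ _
  -- distinctness
  have hne : ∀ k, 2 ≤ k → k + 1 < p → k • Q ≠ Q ∧ k • Q ≠ -Q := by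
    intro k hk1 hkp
    constructor
    · intro h
      apply hQk (k - 1) (by omega) (by omega)
      obtain ⟨j, rfl⟩ : ∃ j, k = j + 1 := ⟨k - 1, by omega⟩
      rw [succ_nsmul] at h
      rw [Nat.add_sub_cancel]
      exact left_eq_add.mp (by rw [add_comm] at h; exact h.symm)
    · intro h
      apply hQk (k + 1) (by omega) (by omega)
      rw [succ_nsmul, h, neg_add_cancel]
  have hseq := seq_lemma (v := v) (x := fun k => xc (k • Q)) (a := W.a₄) hp3 ?_ hμ ?_ ?_ ?_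
  · -- conclusion
    simp only [one_smul] at hseq
    have hδ : v (xc Q) = v d ^ 2 := by
      rw [hd, ← pow_mul, mul_comm, pow_mul] at hseq
      exact (pow_left_inj₀ zero_le zero_le hp.ne_zero).mp hseq
    have hQ0 : Q ≠ 0 := by rw [← h1Q]; exact hQk 1 le_rfl (by omega)
    have hQ1 : v (xc Q) < 1 := by rw [hQ]; exact hns k₀ hk₀.1 hk₀.2
    have hQμ : v W.a₄ < v (xc Q) := by rw [hQ]; exact hgt k₀ hk₀.1 hk₀.2
    generalize Q = R at hQ0 hQ1 hQμ hδ hQt
    rcases R with _ | ⟨x, y, h⟩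
    · exact absurd rfl hQ0
    rw [xc_some] at hQ1 hQμ hδ
    have hx0 : 0 < v x := hμ.trans hQμ
    have hd0 : d ≠ 0 := by
      rintro rfl
      rw [map_zero, zero_pow two_ne_zero] at hδ
      exact hx0.ne' hδ
    have e := special_eq hW h.1
    -- `v y = v x`
    have hvy : v y = v d ^ 2 := by
      have e1 : y ^ 2 = x * (W.a₂ * x + (x ^ 2 + W.a₄)) := by rw [e]; ring
      have hx2 : v (x ^ 2) < v x := by
        rw [map_pow, sq]; simpa using mul_lt_mul_of_pos_left hQ1 hx0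
      have e2 : v (W.a₂ * x + (x ^ 2 + W.a₄)) = v x := by
        rw [v.map_add_eq_of_lt_left, map_mul, h2, one_mul]
        rw [map_mul, h2, one_mul]
        exact v.map_add_lt hx2 hQμ
      have e3 : v y ^ 2 = v x ^ 2 := by
        rw [← map_pow, e1, map_mul, e2, sq]
      rw [← hδ]
      exact (pow_left_inj₀ zero_le zero_le two_ne_zero).mp e3
    obtain ⟨h', hsR⟩ := hs x y h
    have hd2 : v (d ^ 2) = v d ^ 2 := map_pow _ _ _
    have hd20 : d ^ 2 ≠ 0 := pow_ne_zero 2 hd0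
    have hvd20 : 0 < v d ^ 2 := by rw [← hδ]; exact hx0
    obtain ⟨α, hα⟩ : ∃ α, x = d ^ 2 * α := ⟨x / d ^ 2, by field_simp⟩
    obtain ⟨β, hβ⟩ : ∃ β, y = d ^ 2 * β := ⟨y / d ^ 2, by field_simp⟩
    have hvα : v α = 1 := by
      rw [hα, map_mul, hd2] at hδ
      exact mul_left_cancel₀ hvd20.ne' (by rw [hδ, mul_one])
    have hvβ : v β = 1 := by
      rw [hβ, map_mul, hd2] at hvy
      exact mul_left_cancel₀ hvd20.ne' (by rw [hvy, mul_one])
    have hxσ : v (x - σ x) < v d ^ 2 := by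
      have : x - σ x = -(d ^ 2 * (σ α - α)) := by
        rw [hα, map_mul, map_pow, hσd]; ring
      rw [this, Valuation.map_neg, map_mul, hd2]
      simpa using mul_lt_mul_of_pos_left (hσ α hvα.le) hvd20
    have hyσ : v (y + σ y) = v d ^ 2 := by
      have : y + σ y = d ^ 2 * (2 * β + (σ β - β)) := by
        rw [hβ, map_mul, map_pow, hσd]; ring
      rw [this, map_mul, hd2, (v_add_small (hσ β hvβ.le)).mpr, mul_one]
      rw [map_mul, hv2, hvβ, mul_one]
    have hker : InKer v (Point.some x y h - Point.some (σ x) (σ y) h' : W.toAffine.Point) := by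
      rw [sub_eq_add_neg, Point.neg_some]
      by_cases hxy : x = σ x ∧ y = W.toAffine.negY (σ x) (W.toAffine.negY (σ x) (σ y))
      · rw [Point.add_of_Y_eq hxy.1 hxy.2]
        exact inKer_zero
      rw [Point.add_some hxy, inKer_some]
      have hx1 : v x ≤ 1 := hQ1.le
      have hσx1 : v (σ x) ≤ 1 := by
        have : σ x = (σ x - x) + x := by ring
        rw [this]; exact v.map_add_le (hσ x hx1).le hx1
      apply v_addX_of_slope hI hx1 hσx1
      by_cases hx' : x = σ x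
      · exfalso
        rcases Y_eq_of_X_eq h.1 h'.1 hx' with hy' | hy'
        · exact hxy ⟨hx', by rw [negY_negY]; exact hy'⟩
        · rw [special_negY hW] at hy'
          have h0 : y + σ y = 0 := by linear_combination hy'
          rw [h0, map_zero] at hyσ
          exact hvd20.ne hyσ
      · rw [slope_of_X_ne hx', special_negY hW, sub_neg_eq_add, map_div₀, hyσ]
        have : 0 < v (x - σ x) := by rw [Valuation.pos_iff]; exact sub_ne_zero.mpr hx'
        rwa [one_lt_div₀ this]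
    have := ker_torsion_free hI hker hvp (by
      rw [smul_sub, hQt, ← hsR, ← map_nsmul, hQt, map_zero, sub_zero])
    rw [hsR]
    exact (sub_eq_zero.mp this).symm
  · intro k hk1 hkp
    simp only [one_smul]
    obtain ⟨j, hj1, hjp, hj⟩ := hmul k hk1 hkp
    rw [hj]
    refine ⟨hgt j hj1 hjp, hns j hj1 hjp, hmax j ?_⟩
    rw [Finset.mem_Ico]; exact ⟨hj1, hjp⟩
  · -- duplication
    simp only [one_smul]
    have hQ0 : Q ≠ 0 := by rw [← h1Q]; exact hQk 1 le_rfl (by omega)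
    have hQQ : Q + Q = 2 • Q := (two_nsmul Q).symm
    have h := xc_two hW hQ0 (by rw [hQQ]; exact hQk 2 (by omega) (by omega))
    rw [hQQ] at h
    have hQ1 : v (xc Q) < 1 := by rw [hQ]; exact hns k₀ hk₀.1 hk₀.2
    have hQμ : v W.a₄ < v (xc Q) := by rw [hQ]; exact hgt k₀ hk₀.1 hk₀.2
    have hx0 : 0 < v (xc Q) := hμ.trans hQμ
    have e1 : 4 * (xc Q ^ 3 + W.a₂ * xc Q ^ 2 + W.a₄ * xc Q) =
        (2 ^ 2 * xc Q) * (W.a₂ * xc Q + (xc Q ^ 2 + W.a₄)) := by ring
    have hx2 : v (xc Q ^ 2) < v (xc Q) := by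
      rw [map_pow, sq]; simpa using mul_lt_mul_of_pos_left hQ1 hx0
    have e2 : v (W.a₂ * xc Q + (xc Q ^ 2 + W.a₄)) = v (xc Q) := by
      rw [v.map_add_eq_of_lt_left, map_mul, h2, one_mul]
      rw [map_mul, h2, one_mul]
      exact v.map_add_lt hx2 hQμ
    have h5 := congrArg v h
    rwa [e1, map_mul, map_mul, map_mul, e2, map_pow, map_pow, hv2, one_pow, one_mul,
      ← sq] at h5
  · intro k hk1 hkp
    simp only [one_smul]
    obtain ⟨h1, h3⟩ := hne k hk1 hkp
    have h := xc_add_mul_xc_sub hW (hQk k (by omega) (by omega))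
      (by rw [← h1Q]; exact hQk 1 le_rfl (by omega)) h1 h3
    have e1 : k • Q + Q = (k + 1) • Q := (succ_nsmul Q k).symm
    have e2 : k • Q - Q = (k - 1) • Q := by
      obtain ⟨j, rfl⟩ : ∃ j, k = j + 1 := ⟨k - 1, by omega⟩
      rw [succ_nsmul, Nat.add_sub_cancel, add_sub_cancel_right]
    rw [e1, e2] at h
    have := congrArg v h
    rwa [map_mul, map_mul, map_pow, map_pow] at this
  · simp only [one_smul]
    have : (p - 1) • Q = -Q := by
      have h := hQt
      obtain ⟨j, rfl⟩ : ∃ j, p = j + 1 := ⟨p - 1, by omega⟩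
      rw [succ_nsmul] at h
      rw [Nat.add_sub_cancel]
      exact eq_neg_of_add_eq_zero_left h
    rw [this, xc_neg]

end val

end Fermat.Agent.ECRed
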