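import Fermat.Agent.ECRed.Inertia
import Fermat.Agent.ECRed.Nodal
import Fermat.Agent.ECRed.Good
import Fermat.Prelude.Def_FLTPrelim_Ramification

/-! # The mod `p` representation of the Frey curve is unramified at odd primes `q ≠ p` -/

set_option autoImplicit false

namespace Fermat.Agent.ECRed

open WeierstrassCurve WeierstrassCurve.Affine
open scoped WeierstrassCurve.Affine

/-- The curve `y² = x³ + m x² + n x`. -/
def specialCurve (m n : ℤ) : WeierstrassCurve ℚ := ⟨0, m, 0, n, 0⟩

section

variable {K : Type*} [Field K] [Algebra ℚ K] (m n : ℤ)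

lemma specialCurve_special : IsSpecial ((specialCurve m n).baseChange K) where
  a₁ := by simp [specialCurve, WeierstrassCurve.baseChange]
  a₃ := by simp [specialCurve, WeierstrassCurve.baseChange]
  a₆ := by simp [specialCurve, WeierstrassCurve.baseChange]

lemma specialCurve_a₂ : ((specialCurve m n).baseChange K).a₂ = (m : K) := by
  simp [specialCurve, WeierstrassCurve.baseChange]

lemma specialCurve_a₄ : ((specialCurve m n).baseChange K).a₄ = (n : K) := by
  simp [specialCurve, WeierstrassCurve.baseChange]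

lemma specialCurve_Δ : ((specialCurve m n).baseChange K).Δ =
    ((16 * n ^ 2 * (m ^ 2 - 4 * n) : ℤ) : K) := by
  simp [specialCurve, WeierstrassCurve.baseChange, WeierstrassCurve.Δ, WeierstrassCurve.b₂,
    WeierstrassCurve.b₄, WeierstrassCurve.b₆, WeierstrassCurve.b₈]
  ring

variable [CharZero K] [DecidableEq K] {m n} (A : ValuationSubring K) {q : ℕ} (hq : A.LiesOverPrime q)

include hq

/-- Good reduction case. -/
theorem specialCurve_good {r : ℕ} (hr : Nat.Coprime r q)
    (hΔ : IsCoprime (16 * n ^ 2 * (m ^ 2 - 4 * n)) (q : ℤ)) (σ : K ≃ₐ[ℚ] K)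
    (hσ : σ ∈ A.inertiaSubgroupIn ℚ) (P : ((specialCurve m n).toAffine.baseChange K).Point)
    (hP : r • P = 0) : σ • P = P := by
  have hI : IntCoeff A.valuation ((specialCurve m n).baseChange K) := by
    apply intCoeff_special (specialCurve_special m n)
    · rw [specialCurve_a₂]; exact v_int_le_one m
    · rw [specialCurve_a₄]; exact v_int_le_one n
  refine good_fixed hI ?_ (valuation_nat_eq_one A hq hr) (fun x => σ x)
    (fun x hx => inertia_sub A hσ hx)
    (DistribSMul.toAddMonoidHom ((specialCurve m n).toAffine.baseChange K).Point σ) ?_ hP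
  · rw [specialCurve_Δ]; exact valuation_int_eq_one A hq hΔ
  · intro x y h
    exact ⟨_, rfl⟩

/-- Nodal case. -/
theorem specialCurve_nodal {p : ℕ} (hp : p.Prime) (hp3 : 3 ≤ p) (hpq : Nat.Coprime p q)
    (hq2 : Nat.Coprime 2 q) (hm : IsCoprime m (q : ℤ)) {d : ℤ} (hd : (q : ℤ) ∣ d) (hn : n ≠ 0)
    (hdn : n = d ^ p ∨ n = -d ^ p) (σ : K ≃ₐ[ℚ] K)
    (hσ : σ ∈ A.inertiaSubgroupIn ℚ) (P : ((specialCurve m n).toAffine.baseChange K).Point)
    (hP : p • P = 0) : σ • P = P := by
  have hdvd : (q : ℤ) ∣ n := by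
    rcases hdn with h | h
    · rw [h]; exact dvd_pow hd hp.ne_zero
    · rw [h, dvd_neg]; exact dvd_pow hd hp.ne_zero
  refine nodal_fixed (v := A.valuation) (specialCurve_special m n) ?_ ?_ ?_ ?_ hp hp3
    (valuation_nat_eq_one A hq hpq) (d := (d : K)) ?_ (σ : K →+* K)
    (fun x hx => inertia_sub A hσ hx) ?_
    (DistribSMul.toAddMonoidHom ((specialCurve m n).toAffine.baseChange K).Point σ) ?_ hP
  · rw [specialCurve_a₂]; exact valuation_int_eq_one A hq hm
  · rw [specialCurve_a₄]; exact valuation_int_lt_one A hq hdvd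
  · rw [specialCurve_a₄]; exact_mod_cast hn
  · exact_mod_cast valuation_nat_eq_one A hq hq2
  · rw [specialCurve_a₄, ← map_pow]
    rcases hdn with h | h
    · rw [h]; push_cast; rfl
    · rw [h]; push_cast; rw [Valuation.map_neg]
  · simp
  · intro x y h
    exact ⟨_, rfl⟩

end

end Fermat.Agent.ECRed
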