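import Fermat.Agent.ECRed.Kernel

/-! # Points with the same nonsingular reduction differ by the kernel of reduction -/

set_option autoImplicit false

namespace Fermat.Agent.ECRed

open WeierstrassCurve WeierstrassCurve.Affine Polynomial

variable {K Γ₀ : Type*} [Field K] [LinearOrderedCommGroupWithZero Γ₀] {v : Valuation K Γ₀}
variable {W : WeierstrassCurve K}

/-- If the slope has valuation `> 1` and the abscissas are integral, the sum is in the kernel. -/
lemma v_addX_of_slope (hW : IntCoeff v W) {x x' ℓ : K} (hx : v x ≤ 1) (hx' : v x' ≤ 1)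
    (hℓ : 1 < v ℓ) : 1 < v (W.toAffine.addX x x' ℓ) := by
  have h1 : v ℓ < v ℓ ^ 2 := by simpa using pow_lt_pow_right₀ hℓ (show 1 < 2 by norm_num)
  have e : W.toAffine.addX x x' ℓ = ℓ ^ 2 + (W.a₁ * ℓ - W.a₂ - x - x') := by rw [addX]; ring
  have h2 : v (W.a₁ * ℓ - W.a₂ - x - x') ≤ v ℓ :=
    v.map_sub_le (v.map_sub_le (v.map_sub_le (v_imul_le hW.a₁ le_rfl) (hW.a₂.trans hℓ.le))
      (hx.trans hℓ.le)) (hx'.trans hℓ.le)
  rw [e, v.map_add_eq_of_lt_left, map_pow]
  · exact hℓ.trans h1
  · rw [map_pow]; exact lt_of_le_of_lt h2 h1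

lemma v_add_small {a b : K} (hb : v b < 1) : v (a + b) = 1 ↔ v a = 1 := by
  constructor
  · intro h
    have : a = (a + b) - b := by ring
    rw [this, v.map_sub_eq_of_lt_left (by rwa [h]), h]
  · intro h
    rw [v.map_add_eq_of_lt_left (by rwa [h]), h]

lemma v_imul_lt {a b : K} (ha : v a ≤ 1) (hb : v b < 1) : v (a * b) < 1 :=
  lt_of_le_of_lt (v_imul_le ha le_rfl) hb

variable [DecidableEq K]

lemma sub_inKer_of_close (hW : IntCoeff v W) {x y x' y' : K} (h : W.toAffine.Nonsingular x y)
    (h' : W.toAffine.Nonsingular x' y') (hx : v x ≤ 1) (hy : v y ≤ 1)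
    (hxx : v (x - x') < 1) (hyy : v (y - y') < 1)
    (hns : v (2 * y + W.a₁ * x + W.a₃) = 1 ∨
      v (3 * x ^ 2 + 2 * W.a₂ * x + W.a₄ - W.a₁ * y) = 1) :
    InKer v (.some x y h - .some x' y' h' : W.toAffine.Point) := by
  have hx' : v x' ≤ 1 := by
    have : x' = x - (x - x') := by ring
    rw [this]; exact v.map_sub_le hx hxx.le
  have hy' : v y' ≤ 1 := by
    have : y' = y - (y - y') := by ring
    rw [this]; exact v.map_sub_le hy hyy.le
  rw [sub_eq_add_neg, Point.neg_some]
  by_cases hxy : x = x' ∧ y = W.toAffine.negY x' (W.toAffine.negY x' y')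
  · rw [Point.add_of_Y_eq hxy.1 hxy.2]
    exact inKer_zero
  rw [Point.add_some hxy, inKer_some]
  apply v_addX_of_slope hW hx hx'
  have heq := (equation_iff _ _).mp h.1
  have heq' := (equation_iff _ _).mp h'.1
  by_cases hx0 : x = x'
  · have hyne : y ≠ W.toAffine.negY x' (W.toAffine.negY x' y') := fun e => hxy ⟨hx0, e⟩
    subst hx0
    rw [slope_of_Y_ne rfl hyne]
    have hyne' : y ≠ y' := by rwa [negY_negY] at hyne
    have hyneg : y = W.toAffine.negY x y' := Y_eq_of_X_eq h.1 h'.1 rfl |>.resolve_left hyne'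
    have hd : y - W.toAffine.negY x y = y - y' := by
      rw [hyneg, negY_negY]
    have hd' : y - y' = 2 * y + W.a₁ * x + W.a₃ := by rw [← hd, negY]; ring
    rw [hd, map_div₀]
    have hnum : v (3 * x ^ 2 + 2 * W.a₂ * x + W.a₄ - W.a₁ * y) = 1 := by
      refine hns.resolve_left ?_
      rw [← hd']; exact hyy.ne
    change 1 < v (3 * x ^ 2 + 2 * W.a₂ * x + W.a₄ - W.a₁ * y) / _
    rw [hnum, one_div]
    have : 0 < v (y - y') := by rw [Valuation.pos_iff]; exact sub_ne_zero.mpr hyne'
    exact (one_lt_inv₀ this).mpr hyy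
  · rw [slope_of_X_ne hx0]
    have hxx0 : x - x' ≠ 0 := sub_ne_zero.mpr hx0
    have hvxx0 : 0 < v (x - x') := by rwa [Valuation.pos_iff]
    by_cases hns1 : v (2 * y + W.a₁ * x + W.a₃) = 1
    · have e : y - W.toAffine.negY x' y' =
          (2 * y + W.a₁ * x + W.a₃) + -((y - y') + W.a₁ * (x - x')) := by
        rw [negY]; ring
      rw [map_div₀, e, (v_add_small _).mpr hns1, one_div]
      · exact (one_lt_inv₀ hvxx0).mpr hxx
      · rw [Valuation.map_neg]
        exact v.map_add_lt hyy (v_imul_lt hW.a₁ hxx)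
    · have hns2 := hns.resolve_left hns1
      have e : (y - y') * (y - W.toAffine.negY x' y') = (x - x') *
          ((3 * x ^ 2 + 2 * W.a₂ * x + W.a₄ - W.a₁ * y) +
            (-(x - x')) * (2 * x + x' + W.a₂)) := by
        rw [negY]
        linear_combination heq - heq'
      have hnum : v ((3 * x ^ 2 + 2 * W.a₂ * x + W.a₄ - W.a₁ * y) +
            (-(x - x')) * (2 * x + x' + W.a₂)) = 1 := by
        rw [v_add_small]
        · exact hns2
        · rw [mul_comm]
          apply v_imul_lt
          · exact v.map_add_le (v.map_add_le (v_imul_le v_two_le_one hx) hx') hW.a₂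
          · rwa [Valuation.map_neg]
      have hyy0 : y - y' ≠ 0 := by
        intro h0
        rw [h0, zero_mul] at e
        have := (mul_eq_zero.mp e.symm).resolve_left hxx0
        rw [this, map_zero] at hnum
        exact zero_ne_one hnum
      have hvyy0 : 0 < v (y - y') := by rwa [Valuation.pos_iff]
      have e2 : (y - W.toAffine.negY x' y') / (x - x') =
          ((3 * x ^ 2 + 2 * W.a₂ * x + W.a₄ - W.a₁ * y) +
            (-(x - x')) * (2 * x + x' + W.a₂)) / (y - y') := by
        rw [div_eq_div_iff hxx0 hyy0]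
        linear_combination e
      rw [e2, map_div₀, hnum, one_div]
      exact (one_lt_inv₀ hvyy0).mpr hyy

/-- Two torsion points of order prime to the residue characteristic with the same nonsingular
reduction are equal. -/
theorem eq_of_close (hW : IntCoeff v W) {x y x' y' : K} (h : W.toAffine.Nonsingular x y)
    (h' : W.toAffine.Nonsingular x' y') (hx : v x ≤ 1) (hy : v y ≤ 1)
    (hxx : v (x - x') < 1) (hyy : v (y - y') < 1)
    (hns : v (2 * y + W.a₁ * x + W.a₃) = 1 ∨
      v (3 * x ^ 2 + 2 * W.a₂ * x + W.a₄ - W.a₁ * y) = 1) {n : ℕ} (hn : v (n : K) = 1)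
    (ht : n • (.some x y h : W.toAffine.Point) = 0)
    (ht' : n • (.some x' y' h' : W.toAffine.Point) = 0) :
    (.some x y h : W.toAffine.Point) = .some x' y' h' := by
  rw [← sub_eq_zero]
  apply ker_torsion_free hW (sub_inKer_of_close hW h h' hx hy hxx hyy hns) hn
  rw [smul_sub, ht, ht', sub_zero]

lemma v_le_one_of_torsion (hW : IntCoeff v W) {x y : K} (h : W.toAffine.Nonsingular x y) {n : ℕ}
    (hn : v (n : K) = 1) (ht : n • (.some x y h : W.toAffine.Point) = 0) : v x ≤ 1 ∧ v y ≤ 1 := by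
  have hx : v x ≤ 1 := by
    by_contra hx
    push Not at hx
    exact Point.some_ne_zero h (ker_torsion_free hW ((inKer_some h).mpr hx) hn ht)
  refine ⟨hx, ?_⟩
  by_contra hy
  push Not at hy
  exact absurd (one_lt_v_x_of_one_lt_v_y hW h.1 hy) (not_lt.mpr hx)

end Fermat.Agent.ECRed
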